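import Mathlib
import Fermat.Prelude.Def_ModularCurve_JqCoeff

/-!
# The prelude `q`-expansions `eisenstein4`, `dedekindEtaUnit`, `jq` are the analytic ones
-/

set_option autoImplicit false

open UpperHalfPlane ModularForm MatrixGroups EisensteinSeries Filter Topology ModularCurve

open scoped PowerSeries.WithPiTopology

noncomputable section

namespace Fermat.Agent.FunField

/-- Taylor series at `0` as a power series -/
def taylor (f : ℂ → ℂ) : PowerSeries ℂ := .mk fun m ↦ (↑m.factorial)⁻¹ * iteratedDeriv m f 0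

theorem taylor_mul {f g : ℂ → ℂ} (hf : AnalyticAt ℂ f 0) (hg : AnalyticAt ℂ g 0) :
    taylor (f * g) = taylor f * taylor g := by
  ext n
  simp only [taylor, PowerSeries.coeff_mk, 
    iteratedDeriv_mul hf.contDiffAt hg.contDiffAt, Finset.mul_sum, PowerSeries.coeff_mul,
    Finset.Nat.sum_antidiagonal_eq_sum_range_succ_mk, Nat.succ_eq_add_one]
  refine Finset.sum_congr rfl fun i hi ↦ ?_
  rw [Nat.cast_choose _ (by grind)]
  field_simp [Nat.factorial_ne_zero]

theorem taylor_congr {f g : ℂ → ℂ} (h : f =ᶠ[𝓝 0] g) : taylor f = taylor g := by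
  ext n
  simp only [taylor, PowerSeries.coeff_mk]
  rw [h.iteratedDeriv_eq]

theorem taylor_one : taylor 1 = 1 := by
  ext n
  have h2 : iteratedDeriv n (1 : ℂ → ℂ) 0 = if n = 0 then 1 else 0 := by
    simpa [ite_apply] using! iteratedDeriv_const
  simp +contextual [taylor, h2, PowerSeries.coeff_one]

theorem taylor_pow {f : ℂ → ℂ} (hf : AnalyticAt ℂ f 0) (n : ℕ) :
    taylor (f ^ n) = taylor f ^ n := by
  induction n with
  | zero => simpa using taylor_one
  | succ n ih => rw [pow_succ, taylor_mul (hf.pow n) hf, ih, pow_succ]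

theorem taylor_id : taylor (fun q => q) = PowerSeries.X := by
  ext n
  simp only [taylor, PowerSeries.coeff_mk, PowerSeries.coeff_X]
  rcases n with _ | n
  · simp
  · rw [iteratedDeriv_succ']
    have : deriv (fun q : ℂ => q) = fun _ => 1 := by ext; simp
    rw [this]
    rcases n with _ | n
    · simp
    · rw [iteratedDeriv_const]
      simp

theorem taylor_add {f g : ℂ → ℂ} (hf : AnalyticAt ℂ f 0) (hg : AnalyticAt ℂ g 0) :
    taylor (f + g) = taylor f + taylor g := by
  ext n
  simp only [taylor, PowerSeries.coeff_mk, map_add,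
    iteratedDeriv_add hf.contDiffAt hg.contDiffAt, mul_add]

theorem taylor_neg {f : ℂ → ℂ} (hf : AnalyticAt ℂ f 0) : taylor (-f) = - taylor f := by
  have h1 : taylor (f + (-f)) = taylor f + taylor (-f) := taylor_add hf hf.neg
  have h0 : taylor (0 : ℂ → ℂ) = 0 := by
    ext n
    simp [taylor]
  rw [add_neg_cancel, h0] at h1
  exact (neg_eq_of_add_eq_zero_right h1.symm).symm

/-- finite eta products -/
def pFin (M : ℕ) : ℂ → ℂ := fun q => ∏ i ∈ Finset.range M, (1 - q ^ (i + 1))

theorem analyticAt_pFin (M : ℕ) (z : ℂ) : AnalyticAt ℂ (pFin M) z := by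
  unfold pFin
  fun_prop

theorem taylor_pFin (M : ℕ) : taylor (pFin M) =
    (∏ i ∈ Finset.range M, (1 - PowerSeries.X ^ (i + 1)) : PowerSeries ℤ).map
      (Int.castRingHom ℂ) := by
  induction M with
  | zero =>
    have : pFin 0 = 1 := by ext; simp [pFin]
    rw [this, taylor_one]
    simp
  | succ M ih =>
    have : pFin (M + 1) = pFin M * (1 + -((fun q => q) ^ (M + 1))) := by
      ext q
      simp [pFin, Finset.prod_range_succ, sub_eq_add_neg]
    have ha : AnalyticAt ℂ (fun q : ℂ => q) 0 := analyticAt_id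
    have h1 : AnalyticAt ℂ (1 : ℂ → ℂ) 0 := analyticAt_const
    rw [this, taylor_mul (analyticAt_pFin M 0) (h1.add (ha.pow _).neg),
      taylor_add h1 (ha.pow _).neg, taylor_one, taylor_neg (ha.pow _),
      taylor_pow ha, taylor_id, ih, Finset.prod_range_succ]
    simp [sub_eq_add_neg]

/-- the infinite product -/
def pInf : ℂ → ℂ := fun q => ∏' i, (1 - q ^ (i + 1))

theorem analyticAt_pInf : AnalyticAt ℂ pInf 0 :=
  differentiableOn_tprod_one_sub_pow.analyticAt (Metric.ball_mem_nhds 0 one_pos)

theorem tendsto_iteratedDeriv_pFin (n : ℕ) :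
    TendstoLocallyUniformlyOn (fun M => iteratedDeriv n (pFin M)) (iteratedDeriv n pInf)
      atTop (Metric.ball (0 : ℂ) 1) := by
  induction n with
  | zero =>
    simp only [iteratedDeriv_zero]
    have h := multipliableLocallyUniformlyOn_one_sub_pow.hasProdLocallyUniformlyOn
    rw [hasProdLocallyUniformlyOn_iff_tendstoLocallyUniformlyOn] at h
    have h2 : TendstoLocallyUniformlyOn (fun M : ℕ => fun q : ℂ =>
      ∏ i ∈ Finset.range M, (1 - q ^ (i + 1))) (fun q => ∏' i, (1 - q ^ (i + 1))) atTop
      (Metric.ball (0 : ℂ) 1) := by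
      intro u hu x hx
      obtain ⟨t, ht, ht2⟩ := h u hu x hx
      exact ⟨t, ht, tendsto_finset_range.eventually ht2⟩
    exact h2
  | succ n ih =>
    simp only [iteratedDeriv_succ]
    refine ih.deriv (Eventually.of_forall fun M => ?_) Metric.isOpen_ball
    intro z _
    have := (analyticAt_pFin M z).iterated_deriv n
    rw [← iteratedDeriv_eq_iterate] at this
    exact this.differentiableAt.differentiableWithinAt

theorem taylor_pInf : taylor pInf = etaProd.map (Int.castRingHom ℂ) := by
  ext n
  -- formal side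
  have h1 : Tendsto (fun M => PowerSeries.coeff n
      (∏ i ∈ Finset.range M, (1 - PowerSeries.X ^ (i + 1)) : PowerSeries ℤ)) atTop
      (𝓝 (PowerSeries.coeff n etaProd)) := by
    have hp := (PowerSeries.WithPiTopology.multipliable_one_sub_X_pow ℤ).hasProd
    have hc := PowerSeries.WithPiTopology.continuous_coeff ℤ n
    exact (hc.tendsto _).comp (hp.comp tendsto_finset_range)
  rw [nhds_discrete, tendsto_pure] at h1
  -- analytic side
  have h2 : Tendsto (fun M => PowerSeries.coeff n (taylor (pFin M))) atTop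
      (𝓝 (PowerSeries.coeff n (taylor pInf))) := by
    have := (tendsto_iteratedDeriv_pFin n).tendsto_at (Metric.mem_ball_self one_pos)
    simpa [taylor] using this.const_mul ((n.factorial : ℂ)⁻¹)
  have h3 : (fun M => PowerSeries.coeff n (taylor (pFin M))) =ᶠ[atTop]
      fun _ => PowerSeries.coeff n (etaProd.map (Int.castRingHom ℂ)) := by
    filter_upwards [h1] with M hM
    rw [taylor_pFin, PowerSeries.coeff_map, PowerSeries.coeff_map, hM]
  exact tendsto_nhds_unique (h2.congr' h3) tendsto_const_nhds |>.symm ▸ rfl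

theorem qExpansion_discriminant : qExpansion 1 ModularForm.discriminant =
    PowerSeries.X * dedekindEtaUnit.map (Int.castRingHom ℂ) := by
  have h0 : qExpansion 1 ModularForm.discriminant =
    taylor (cuspFunction 1 ModularForm.discriminant) := rfl
  have h1 : cuspFunction 1 ModularForm.discriminant =ᶠ[𝓝 0] ((fun q => q) * pInf ^ 24) := by
    filter_upwards [Metric.ball_mem_nhds (0 : ℂ) one_pos] with q hq
    rw [discriminant_cuspFunction_eqOn hq]
    simp only [Pi.mul_apply, Pi.pow_apply, pInf]
    rw [(multipliable_one_sub_pow (by simpa using hq)).tprod_pow]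
  have ha : AnalyticAt ℂ (fun q : ℂ => q) 0 := analyticAt_id
  rw [h0, taylor_congr h1, taylor_mul ha (analyticAt_pInf.pow 24), taylor_id,
    taylor_pow analyticAt_pInf, taylor_pInf, dedekindEtaUnit, map_pow]

theorem qExpansion_E4 : qExpansion 1 (E₄ : ModularForm 𝒮ℒ 4) =
    eisenstein4.map (Int.castRingHom ℂ) := by
  ext n
  rw [E_qExpansion_coeff _ ⟨2, rfl⟩, show bernoulli 4 = -1 / 30 by decide +kernel,
    PowerSeries.coeff_map, eisenstein4, PowerSeries.coeff_mk]
  split_ifs with h
  · simp
  · rw [ArithmeticFunction.sigma_apply]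
    push_cast
    norm_num

/-- The prelude `j`-expansion over `ℂ` is the quotient of the analytic `q`-expansions of
`E₄ ^ 3` and `Δ`. -/
theorem jqModC_mul : jqModC ℂ *
    HahnSeries.ofPowerSeries ℤ ℂ (qExpansion 1 ModularForm.discriminant) =
    HahnSeries.ofPowerSeries ℤ ℂ (qExpansion 1 (E₄ : ModularForm 𝒮ℒ 4)) ^ 3 := by
  rw [qExpansion_discriminant, qExpansion_E4, jqModC, map_mul, HahnSeries.ofPowerSeries_X,
    ← map_pow, ← map_pow]
  rw [mul_mul_mul_comm, ← map_mul, ← map_mul, HahnSeries.single_mul_single]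
  rw [jNum, mul_assoc, mul_comm dedekindEtaUnitInv, dedekindEtaUnit_mul_inv]
  simp

end Fermat.Agent.FunField
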