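import Mathlib
import Fermat.Prelude.Def_ModularCurve_X0ModL

/-!
# The derivation `θ = q d/dq` on Laurent series
-/

set_option autoImplicit false

open ModularCurve

noncomputable section

namespace Fermat.Agent.FunField

variable {R : Type*} [CommRing R]

/-- `θ = q d/dq` on Laurent series, as a function -/
def thetaF (x : LaurentSeries R) : LaurentSeries R where
  coeff := fun n => (n : R) * x.coeff n
  isPWO_support' := x.isPWO_support.mono fun n hn h => hn (by simp [h])

@[simp] theorem thetaF_coeff (x : LaurentSeries R) (n : ℤ) :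
    (thetaF x).coeff n = (n : R) * x.coeff n := rfl

theorem thetaF_mul (x y : LaurentSeries R) :
    thetaF (x * y) = x * thetaF y + y * thetaF x := by
  ext n
  have hs1 : (thetaF y).support ⊆ y.support := fun n hn h => hn (by simp [h])
  have hs2 : (thetaF x).support ⊆ x.support := fun n hn h => hn (by simp [h])
  rw [mul_comm y]
  rw [HahnSeries.coeff_add, thetaF_coeff, HahnSeries.coeff_mul,
    HahnSeries.coeff_mul_right' y.isPWO_support hs1, HahnSeries.coeff_mul_left' x.isPWO_support hs2,
    ← Finset.sum_add_distrib, Finset.mul_sum]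
  refine Finset.sum_congr rfl fun ij hij => ?_
  rw [Finset.mem_antidiagonal] at hij
  rw [← hij.2.2]
  simp only [thetaF_coeff]
  push_cast
  ring

theorem algebraMap_laurent (c : R) : algebraMap R (LaurentSeries R) c = HahnSeries.single 0 c := by
  have h1 : algebraMap R (PowerSeries R) c = PowerSeries.C c := by
    simp
  rw [HahnSeries.algebraMap_apply', h1, HahnSeries.ofPowerSeries_C]
  rfl

theorem algebraMap_mul_coeff (c : R) (x : LaurentSeries R) (n : ℤ) :
    (algebraMap R (LaurentSeries R) c * x).coeff n = c * x.coeff n := by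
  rw [algebraMap_laurent, HahnSeries.coeff_single_zero_mul]

theorem natCast_mul_coeff (d : ℕ) (x : LaurentSeries R) (n : ℤ) :
    ((d : LaurentSeries R) * x).coeff n = d * x.coeff n := by
  rw [← map_natCast (algebraMap R (LaurentSeries R)), algebraMap_mul_coeff]

variable (R) in
/-- `θ = q d/dq` on Laurent series, as an additive map (derivation: see `thetaD_mul`) -/
def thetaD : LaurentSeries R →+ LaurentSeries R where
  toFun := thetaF
  map_zero' := by
    ext n
    simp
  map_add' x y := by
    ext n
    simp [mul_add]

theorem thetaD_mul (x y : LaurentSeries R) :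
    thetaD R (x * y) = x * thetaD R y + y * thetaD R x := thetaF_mul x y

@[simp] theorem thetaD_coeff (x : LaurentSeries R) (n : ℤ) :
    (thetaD R x).coeff n = (n : R) * x.coeff n := rfl

theorem thetaD_coeffMap {S : Type*} [CommRing S] (f : R →+* S) (x : LaurentSeries R) :
    thetaD S (coeffMap f x) = coeffMap f (thetaD R x) := by
  ext n
  simp

theorem thetaD_qExpand (d : ℕ) [NeZero d] (x : LaurentSeries R) :
    thetaD R (qExpand R d x) = (d : LaurentSeries R) * qExpand R d (thetaD R x) := by
  ext n
  rw [natCast_mul_coeff, thetaD_coeff]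
  by_cases h : (d : ℤ) ∣ n
  · obtain ⟨m, rfl⟩ := h
    rw [qExpand_coeff_mul, qExpand_coeff_mul, thetaD_coeff]
    push_cast
    ring
  · rw [qExpand_coeff_of_not_dvd _ _ h, qExpand_coeff_of_not_dvd _ _ h]
    simp

/-- `θ` on power series -/
def thetaPS (P : PowerSeries R) : PowerSeries R := PowerSeries.mk fun n => (n : R) * P.coeff n

@[simp] theorem thetaPS_coeff (P : PowerSeries R) (n : ℕ) :
    (thetaPS P).coeff n = (n : R) * P.coeff n := by simp [thetaPS]

theorem thetaD_ofPowerSeries (P : PowerSeries R) :
    thetaD R (HahnSeries.ofPowerSeries ℤ R P) = HahnSeries.ofPowerSeries ℤ R (thetaPS P) := by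
  ext n
  rw [thetaD_coeff]
  rcases lt_or_ge n 0 with h | h
  · rw [ofPowerSeries_coeff_of_neg _ h, ofPowerSeries_coeff_of_neg _ h, mul_zero]
  · obtain ⟨m, rfl⟩ := Int.eq_ofNat_of_zero_le h
    rw [HahnSeries.ofPowerSeries_apply_coeff, HahnSeries.ofPowerSeries_apply_coeff, thetaPS_coeff]
    simp

theorem thetaPS_eq (P : PowerSeries R) :
    thetaPS P = PowerSeries.X * PowerSeries.derivative (R := R) P := by
  ext n
  rcases n with _ | n
  · simp
  · rw [thetaPS_coeff, PowerSeries.coeff_succ_X_mul, PowerSeries.coeff_derivative]
    push_cast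
    ring

theorem thetaD_single (n : ℤ) (c : R) :
    thetaD R (HahnSeries.single n c) = HahnSeries.single n ((n : R) * c) := by
  ext m
  rw [thetaD_coeff]
  by_cases h : m = n
  · subst h
    simp
  · rw [HahnSeries.coeff_single_of_ne h, HahnSeries.coeff_single_of_ne h, mul_zero]

theorem thetaD_algebraMap (c : R) : thetaD R (algebraMap R (LaurentSeries R) c) = 0 := by
  rw [algebraMap_laurent, thetaD_single]
  simp

theorem thetaD_one : thetaD R 1 = 0 := by
  rw [← map_one (algebraMap R (LaurentSeries R)), thetaD_algebraMap]

theorem thetaD_pow (x : LaurentSeries R) (n : ℕ) :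
    thetaD R (x ^ n) = (n : LaurentSeries R) * x ^ (n - 1) * thetaD R x := by
  induction n with
  | zero => simp [thetaD_one]
  | succ n ih =>
    rw [pow_succ, thetaD_mul, ih]
    rcases n with _ | n
    · simp
    · simp only [Nat.add_sub_cancel]
      push_cast
      ring

section FieldStuff

/-- An additive map satisfying the Leibniz rule, and mapping a subfield `E` to itself, maps `E(x)`
to itself for `x` separable algebraic over `E`. -/
theorem leibniz_mem_adjoin {E L : Type*} [Field E] [Field L] [Algebra E L] (d : L →+ L)
    (hd : ∀ x y, d (x * y) = x * d y + y * d x) (F : IntermediateField E L)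
    (hE : ∀ c : E, d (algebraMap E L c) ∈ F) {x : L} (hx : x ∈ F) (hsep : IsSeparable E x) :
    d x ∈ F := by
  have h1 : d 1 = 0 := by
    have := hd 1 1
    simp only [one_mul, mul_one] at this
    simpa using this
  have hpow : ∀ n : ℕ, d (x ^ n) = (n : L) * x ^ (n - 1) * d x := by
    intro n
    induction n with
    | zero => simp [h1]
    | succ n ih =>
      rw [pow_succ, hd, ih]
      rcases n with _ | n
      · simp
      · simp only [Nat.add_sub_cancel]
        push_cast
        ring
  have key : ∀ p : Polynomial E, ∃ y ∈ F, d (Polynomial.aeval x p) = y +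
      Polynomial.aeval x (Polynomial.derivative p) * d x := by
    intro p
    induction p using Polynomial.induction_on' with
    | add p q hp hq =>
      obtain ⟨y, hy, h⟩ := hp
      obtain ⟨z, hz, h'⟩ := hq
      refine ⟨y + z, add_mem hy hz, ?_⟩
      rw [map_add, map_add, h, h', Polynomial.derivative_add, map_add]
      ring
    | monomial n c =>
      refine ⟨d (algebraMap E L c) * x ^ n, mul_mem (hE c) (pow_mem hx n), ?_⟩
      rw [Polynomial.aeval_monomial, hd, hpow, Polynomial.derivative_monomial,
        Polynomial.aeval_monomial]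
      simp only [map_mul, map_natCast]
      ring
  obtain ⟨y, hy, h⟩ := key (minpoly E x)
  rw [minpoly.aeval, map_zero] at h
  have hne : Polynomial.aeval x (Polynomial.derivative (minpoly E x)) ≠ 0 :=
    hsep.aeval_derivative_ne_zero (minpoly.aeval E x)
  have h2 : d x = - y / Polynomial.aeval x (Polynomial.derivative (minpoly E x)) := by
    field_simp
    linear_combination -h
  rw [h2]
  have h3 : Polynomial.aeval x (Polynomial.derivative (minpoly E x)) ∈ F := by
    have := Polynomial.aeval_algHom_apply F.val ⟨x, hx⟩ (Polynomial.derivative (minpoly E x))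
    rw [IntermediateField.val_mk] at this
    rw [this]
    exact SetLike.coe_mem _
  exact div_mem (neg_mem hy) h3

end FieldStuff

end Fermat.Agent.FunField
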