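import Mathlib
import Fermat.Agent.FunField.JExp
import Fermat.Agent.FunField.ThetaD
import Fermat.Agent.J.JDeriv

/-!
# The identities `θ j · Δ = - E₄² E₆` and `(θ j) ^ 6 = j ^ 4 (j - 1728) ^ 3 Δ` over any ring
-/

set_option autoImplicit false

open UpperHalfPlane ModularForm MatrixGroups EisensteinSeries Filter Topology ModularCurve
  FermatJ
open scoped Manifold

noncomputable section

namespace Fermat.Agent.FunField

/-- The `q`-expansion of `E₆` -/
def eisenstein6 : PowerSeries ℤ :=
  PowerSeries.mk fun n => if n = 0 then 1 else -504 * ∑ d ∈ n.divisors, (d : ℤ) ^ 5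

@[simp] theorem constantCoeff_eisenstein6 : PowerSeries.constantCoeff eisenstein6 = 1 := by
  rw [← PowerSeries.coeff_zero_eq_constantCoeff]
  simp [eisenstein6]

theorem qExpansion_E6 : qExpansion 1 (E₆ : ModularForm 𝒮ℒ 6) =
    eisenstein6.map (Int.castRingHom ℂ) := by
  ext n
  rw [E_qExpansion_coeff _ ⟨3, rfl⟩, show bernoulli 6 = 1 / 42 by decide +kernel,
    PowerSeries.coeff_map, eisenstein6, PowerSeries.coeff_mk]
  split_ifs with h
  · simp
  · rw [ArithmeticFunction.sigma_apply]
    push_cast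
    norm_num

/-- The `q`-expansion of `Δ` -/
def deltaZ : PowerSeries ℤ := PowerSeries.X * dedekindEtaUnit

theorem qExpansion_delta : qExpansion 1 ModularForm.discriminant =
    deltaZ.map (Int.castRingHom ℂ) := by
  rw [qExpansion_discriminant, deltaZ, map_mul, PowerSeries.map_X]

theorem map_int_injective : Function.Injective
    (PowerSeries.map (Int.castRingHom ℂ)) :=
  PowerSeries.map_injective _ Int.cast_injective

theorem hasPS_discriminant : HasPS (qc 1) ModularForm.discriminant
    (deltaZ.map (Int.castRingHom ℂ)) := by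
  have h := (HasPS.X (qc 1)).mul (hasPS_etaP.pow 24)
  have h2 : deltaZ.map (Int.castRingHom ℂ) = PowerSeries.X *
      (etaProd.map (Int.castRingHom ℂ)) ^ 24 := by
    rw [deltaZ, map_mul, PowerSeries.map_X, dedekindEtaUnit, map_pow]
  rw [h2]
  exact h.congr fun τ => (discriminant_eq_etaP τ).symm

theorem hasPS_E4 : HasPS (qc 1) (E₄ : ModularForm 𝒮ℒ 4)
    (eisenstein4.map (Int.castRingHom ℂ)) := by
  have := hasPS_E E₄
  rwa [qExpansion_E4] at this

theorem hasPS_E6 : HasPS (qc 1) (E₆ : ModularForm 𝒮ℒ 6)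
    (eisenstein6.map (Int.castRingHom ℂ)) := by
  have := hasPS_E E₆
  rwa [qExpansion_E6] at this

theorem eisenstein_delta : eisenstein4 ^ 3 - eisenstein6 ^ 2 = 1728 * deltaZ := by
  apply map_int_injective
  have h1 := (hasPS_E4.pow 3).add (hasPS_E6.pow 2).neg
  have h2 := (HasPS.C (qc 1) 1728).mul hasPS_discriminant
  have h3 := (h1.congr (g := fun τ => 1728 * discriminant τ) fun τ => by
    rw [discriminant_eq_E₄_cube_sub_E₆_sq]; ring).unique (eventually_mem_range_qc 1) h2
  rw [map_sub, map_pow, map_pow, map_mul, sub_eq_add_neg, h3, map_ofNat, map_ofNat]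

/-- `θ` of the `q`-expansion is the `q`-expansion of the normalised derivative. -/
theorem hasPS_theta {f : ℍ → ℂ} (hper : ∀ τ : ℍ, f (((1 : ℕ) : ℝ) +ᵥ τ) = f τ)
    (hf : MDiff f) (hb : IsBoundedAtImInfty f) :
    HasPS (qc 1) (Derivative.normalizedDerivOfComplex f) (thetaPS (qExpansion 1 f)) := by
  have hper' : Function.Periodic (f ∘ ofComplex) (1 : ℝ) := by
    simpa using periodic_of_forall hper
  have hF := differentiableOn_cuspFunction_ball one_pos hper' hf hb
  have h1 := hasPS_of_differentiableOn (hF.deriv Metric.isOpen_ball) (norm_qc_lt_one 1)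
  have h2 := (HasPS.X (qc 1)).mul h1
  have h3 : PowerSeries.X * (PowerSeries.mk fun n => (n.factorial : ℂ)⁻¹ *
      iteratedDeriv n (deriv (cuspFunction 1 f)) 0) = thetaPS (qExpansion 1 f) := by
    ext n
    rcases n with _ | n
    · simp
    · rw [PowerSeries.coeff_succ_X_mul, PowerSeries.coeff_mk, thetaPS_coeff, qExpansion_coeff,
        ← iteratedDeriv_succ', Nat.factorial_succ]
      push_cast
      have : (n : ℂ) + 1 ≠ 0 := by exact_mod_cast Nat.succ_ne_zero n
      field_simp
  rw [← h3]
  refine h2.congr fun τ => ?_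
  rw [normalizedDeriv_eq_cusp hper hf hb, mul_comm]

theorem HasPS.qExpansion_eq {f : ℍ → ℂ} {P : PowerSeries ℂ}
    (hper : ∀ τ : ℍ, f (((1 : ℕ) : ℝ) +ᵥ τ) = f τ) (hf : MDiff f) (h : HasPS (qc 1) f P) :
    qExpansion 1 f = P := by
  have h1 := hasPS_of_bounded hper hf h.isBounded
  rw [Nat.cast_one] at h1
  exact h1.unique (eventually_mem_range_qc 1) h

theorem theta_jNum : (thetaPS jNum - jNum) * dedekindEtaUnit =
    - (eisenstein4 ^ 2 * eisenstein6) := by
  obtain ⟨c, hc, h⟩ := exists_normalizedDeriv_jf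
  have hper : ∀ τ : ℍ, (fun τ => qc 1 τ * jf τ) (((1 : ℕ) : ℝ) +ᵥ τ) =
      (fun τ => qc 1 τ * jf τ) τ := fun τ => by
    simp only [periodic_of_level_one jf_smul, qc_vadd 1]
  have hq := HasPS.qExpansion_eq hper mdifferentiable_qc_mul_jf hasPS_jNum
  have h1 := hasPS_theta hper mdifferentiable_qc_mul_jf hasPS_jNum.isBounded
  rw [hq] at h1
  have h2 := (h1.add hasPS_jNum.neg).mul (hasPS_etaP.pow 24)
  have h3 := (HasPS.C (qc 1) c).mul ((hasPS_E4.pow 2).mul hasPS_E6)
  have h4 := (h2.congr (g := fun τ => c * (E₄ τ ^ 2 * E₆ τ)) fun τ => by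
    rw [← h, normalizedDeriv_jf_mul_discriminant]; ring).unique (eventually_mem_range_qc 1) h3
  have hθ : thetaPS (jNum.map (Int.castRingHom ℂ)) = (thetaPS jNum).map (Int.castRingHom ℂ) := by
    ext n
    simp
  have h5 := congrArg PowerSeries.constantCoeff h4
  have hc1 : c = -1 := by
    have e4 : PowerSeries.constantCoeff (eisenstein4.map (Int.castRingHom ℂ)) = 1 := by
      rw [← PowerSeries.coeff_zero_eq_constantCoeff_apply, PowerSeries.coeff_map,
        PowerSeries.coeff_zero_eq_constantCoeff_apply, constantCoeff_eisenstein4]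
      simp
    have e6 : PowerSeries.constantCoeff (eisenstein6.map (Int.castRingHom ℂ)) = 1 := by
      rw [← PowerSeries.coeff_zero_eq_constantCoeff_apply, PowerSeries.coeff_map,
        PowerSeries.coeff_zero_eq_constantCoeff_apply, constantCoeff_eisenstein6]
      simp
    have ej : PowerSeries.constantCoeff (jNum.map (Int.castRingHom ℂ)) = 1 := by
      rw [← PowerSeries.coeff_zero_eq_constantCoeff_apply, PowerSeries.coeff_map,
        PowerSeries.coeff_zero_eq_constantCoeff_apply, constantCoeff_jNum]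
      simp
    have ee : PowerSeries.constantCoeff (etaProd.map (Int.castRingHom ℂ)) = 1 := by
      rw [← PowerSeries.coeff_zero_eq_constantCoeff_apply, PowerSeries.coeff_map,
        PowerSeries.coeff_zero_eq_constantCoeff_apply, constantCoeff_etaProd]
      simp
    have et : PowerSeries.constantCoeff (thetaPS (jNum.map (Int.castRingHom ℂ))) = 0 := by
      rw [← PowerSeries.coeff_zero_eq_constantCoeff_apply, thetaPS_coeff]
      simp
    rw [map_mul, map_add, map_neg, map_pow, map_mul, map_mul, map_pow, e4, e6, ej, ee, et,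
      PowerSeries.constantCoeff_C] at h5
    linear_combination -h5
  apply map_int_injective
  rw [map_mul, map_sub, ← hθ, dedekindEtaUnit, map_pow, sub_eq_add_neg, h4, hc1]
  simp

section Laurent

variable (R : Type*) [CommRing R]

/-- `E₄` as a Laurent series over `R` -/
def E4L : LaurentSeries R := HahnSeries.ofPowerSeries ℤ R (eisenstein4.map (Int.castRingHom R))

/-- `E₆` as a Laurent series over `R` -/
def E6L : LaurentSeries R := HahnSeries.ofPowerSeries ℤ R (eisenstein6.map (Int.castRingHom R))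

/-- `Δ` as a Laurent series over `R` -/
def deltaL : LaurentSeries R := HahnSeries.ofPowerSeries ℤ R (deltaZ.map (Int.castRingHom R))

variable {R} in
theorem map_map_int {S : Type*} [CommRing S] (f : R →+* S) (P : PowerSeries ℤ) :
    (P.map (Int.castRingHom R)).map f = P.map (Int.castRingHom S) := by
  ext n
  simp

variable {R} in
theorem coeffMap_E4L {S : Type*} [CommRing S] (f : R →+* S) : coeffMap f (E4L R) = E4L S := by
  rw [E4L, ModularCurve.coeffMap_ofPowerSeries, E4L, map_map_int]

variable {R} in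
theorem coeffMap_E6L {S : Type*} [CommRing S] (f : R →+* S) : coeffMap f (E6L R) = E6L S := by
  rw [E6L, ModularCurve.coeffMap_ofPowerSeries, E6L, map_map_int]

variable {R} in
theorem coeffMap_deltaL {S : Type*} [CommRing S] (f : R →+* S) :
    coeffMap f (deltaL R) = deltaL S := by
  rw [deltaL, ModularCurve.coeffMap_ofPowerSeries, deltaL, map_map_int]

theorem E4L_cube : E4L R ^ 3 - E6L R ^ 2 = 1728 * deltaL R := by
  have := congrArg (fun P => HahnSeries.ofPowerSeries ℤ R (P.map (Int.castRingHom R)))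
    eisenstein_delta
  simp only [map_sub, map_mul, map_pow, map_ofNat] at this
  exact this

theorem deltaL_eq : deltaL R = HahnSeries.single 1 1 *
    HahnSeries.ofPowerSeries ℤ R (dedekindEtaUnit.map (Int.castRingHom R)) := by
  rw [deltaL, deltaZ, map_mul, PowerSeries.map_X, map_mul, HahnSeries.ofPowerSeries_X]

theorem isUnit_deltaL : IsUnit (deltaL R) := by
  refine IsUnit.of_mul_eq_one (HahnSeries.single (-1) 1 *
    HahnSeries.ofPowerSeries ℤ R (dedekindEtaUnitInv.map (Int.castRingHom R))) ?_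
  rw [deltaL_eq, mul_mul_mul_comm, ← map_mul, ← map_mul, HahnSeries.single_mul_single,
    dedekindEtaUnit_mul_inv]
  simp

theorem jqModC_mul_deltaL : jqModC R * deltaL R = E4L R ^ 3 := by
  rw [deltaL_eq, jqModC, mul_mul_mul_comm, ← map_mul, ← map_mul, HahnSeries.single_mul_single,
    jNum, mul_assoc, mul_comm dedekindEtaUnitInv, dedekindEtaUnit_mul_inv, E4L]
  simp

theorem jqModC_sub_mul_deltaL : (jqModC R - 1728) * deltaL R = E6L R ^ 2 := by
  rw [sub_mul, jqModC_mul_deltaL]
  linear_combination E4L_cube R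

theorem thetaPS_map {R S : Type*} [CommRing R] [CommRing S] (f : R →+* S) (P : PowerSeries R) :
    thetaPS (P.map f) = (thetaPS P).map f := by
  ext n
  simp

/-- `θ j · Δ = - E₄² E₆` -/
theorem thetaD_jqModC_mul_deltaL :
    thetaD R (jqModC R) * deltaL R = - (E4L R ^ 2 * E6L R) := by
  have h1 : thetaD R (jqModC R) = HahnSeries.single (-1) 1 *
      HahnSeries.ofPowerSeries ℤ R ((thetaPS jNum - jNum).map (Int.castRingHom R)) := by
    rw [jqModC, thetaD_mul, thetaD_ofPowerSeries, thetaD_single, thetaPS_map, map_sub, map_sub,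
      mul_sub]
    have : HahnSeries.single (-1 : ℤ) (((-1 : ℤ) : R) * 1) = - HahnSeries.single (-1 : ℤ) (1 : R) := by
      rw [show ((-1 : ℤ) : R) * 1 = - 1 by simp]
      exact HahnSeries.single_neg _ _
    rw [this]
    ring
  rw [h1, deltaL_eq, mul_mul_mul_comm, ← map_mul, ← map_mul, HahnSeries.single_mul_single,
    theta_jNum, E4L, E6L]
  simp

/-- `(θ j) ^ 6 = j ^ 4 (j - 1728) ^ 3 Δ` -/
theorem thetaD_jqModC_pow :
    thetaD R (jqModC R) ^ 6 = jqModC R ^ 4 * (jqModC R - 1728) ^ 3 * deltaL R := by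
  have h : thetaD R (jqModC R) ^ 6 * deltaL R ^ 6 =
      (jqModC R ^ 4 * (jqModC R - 1728) ^ 3 * deltaL R) * deltaL R ^ 6 := by
    have e1 : (thetaD R (jqModC R) * deltaL R) ^ 6 = E4L R ^ 12 * E6L R ^ 6 := by
      rw [thetaD_jqModC_mul_deltaL]; ring
    have e2 : (jqModC R * deltaL R) ^ 4 = E4L R ^ 12 := by
      rw [jqModC_mul_deltaL]; ring
    have e3 : ((jqModC R - 1728) * deltaL R) ^ 3 = E6L R ^ 6 := by
      rw [jqModC_sub_mul_deltaL]; ring
    calc _ = (thetaD R (jqModC R) * deltaL R) ^ 6 := by ring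
      _ = (jqModC R * deltaL R) ^ 4 * ((jqModC R - 1728) * deltaL R) ^ 3 := by rw [e1, e2, e3]
      _ = _ := by ring
  exact ((isUnit_deltaL R).pow 6).mul_left_injective h

end Laurent

end Fermat.Agent.FunField
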