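import Mathlib
import Fermat.Agent.FunField.Ramanujan
import Fermat.Agent.MFF.Ratio
import Fermat.Agent.MFF.CoeffDescent

/-!
# Level one forms of weight `12 r` are `P(j) Δ ^ r`
-/

set_option autoImplicit false

open UpperHalfPlane ModularForm MatrixGroups CongruenceSubgroup ModularCurve
open Fermat.Agent.IntStr Fermat.Agent.MFF FermatJ

noncomputable section

namespace Fermat.Agent.FunField

/-- all coefficients of `P` lie in the subring `A` -/
def CoefIn {R : Type*} [CommRing R] (A : Subring R) (P : PowerSeries R) : Prop :=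
  ∀ n, P.coeff n ∈ A

section CoefIn

variable {R : Type*} [CommRing R] {A : Subring R} {P Q : PowerSeries R}

theorem CoefIn.add (hP : CoefIn A P) (hQ : CoefIn A Q) : CoefIn A (P + Q) := fun n => by
  rw [map_add]; exact add_mem (hP n) (hQ n)

theorem CoefIn.neg (hP : CoefIn A P) : CoefIn A (-P) := fun n => by
  rw [map_neg]; exact neg_mem (hP n)

theorem CoefIn.sub (hP : CoefIn A P) (hQ : CoefIn A Q) : CoefIn A (P - Q) := fun n => by
  rw [map_sub]; exact sub_mem (hP n) (hQ n)

theorem CoefIn.mul (hP : CoefIn A P) (hQ : CoefIn A Q) : CoefIn A (P * Q) := fun n => by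
  rw [PowerSeries.coeff_mul]
  exact sum_mem fun _ _ => mul_mem (hP _) (hQ _)

theorem CoefIn.map_int (P : PowerSeries ℤ) : CoefIn A (P.map (Int.castRingHom R)) := fun n => by
  rw [PowerSeries.coeff_map]
  exact intCast_mem A _

theorem CoefIn.one : CoefIn A (1 : PowerSeries R) := by
  have := CoefIn.map_int (A := A) (1 : PowerSeries ℤ)
  rwa [map_one] at this

theorem CoefIn.pow (hP : CoefIn A P) (n : ℕ) : CoefIn A (P ^ n) := by
  induction n with
  | zero => rw [pow_zero]; exact CoefIn.one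
  | succ n ih => rw [pow_succ]; exact ih.mul hP

theorem CoefIn.smul {c : R} (hc : c ∈ A) (hP : CoefIn A P) : CoefIn A (c • P) := fun n => by
  rw [PowerSeries.coeff_smul]
  exact mul_mem hc (hP n)

theorem CoefIn.of_mul_delta (h : CoefIn A (P * deltaZ.map (Int.castRingHom R))) :
    CoefIn A P := by
  have h1 : PowerSeries.X * P = (P * deltaZ.map (Int.castRingHom R)) *
      dedekindEtaUnitInv.map (Int.castRingHom R) := by
    rw [deltaZ, map_mul, PowerSeries.map_X, mul_assoc, mul_assoc, ← map_mul,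
      dedekindEtaUnit_mul_inv, map_one]
    ring
  intro n
  have h2 : CoefIn A (PowerSeries.X * P) := by
    rw [h1]
    exact h.mul (CoefIn.map_int _)
  have := h2 (n + 1)
  rwa [PowerSeries.coeff_succ_X_mul] at this

end CoefIn

theorem LQ_Delta : LQ Delta = deltaL ℂ := by
  rw [LQ, coe_Delta, qExpansion_delta, deltaL]

theorem LQ_E4 : LQ (E₄ : ModularForm 𝒮ℒ 4) = E4L ℂ := by
  rw [LQ, qExpansion_E4, E4L]

theorem LQ_E6 : LQ (E₆ : ModularForm 𝒮ℒ 6) = E6L ℂ := by
  rw [LQ, qExpansion_E6, E6L]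

theorem Delta_isL1 : IsL1 12 Delta := ⟨Delta, rfl⟩

theorem E4cube_isL1 : IsL1 12 E4cube := ⟨E4cube, rfl⟩

theorem LQ_E4cube : LQ E4cube = E4L ℂ ^ 3 := by
  rw [coe_E4cube, LQ_pow isL1_E₄.anQ, LQ_E4]

theorem algebraMap_laurent_injective (K : Type*) [Field K] :
    Function.Injective (algebraMap K (LaurentSeries K)) := (algebraMap K _).injective

/-- the series `j` is transcendental: a polynomial in `j` has order `- natDegree`. -/
theorem aeval_jqModC_coeff {K : Type*} [Field K] (P : Polynomial K) {m : ℤ}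
    (hm : m < - (P.natDegree : ℤ)) : (Polynomial.aeval (jqModC K) P).coeff m = 0 := by
  rw [Polynomial.aeval_eq_sum_range, HahnSeries.coeff_sum]
  refine Finset.sum_eq_zero fun i hi => ?_
  rw [Finset.mem_range] at hi
  rw [Algebra.smul_def, algebraMap_mul_coeff, coeff_jqModC_pow_of_lt K (by omega), mul_zero]

theorem aeval_jqModC_coeff_natDegree {K : Type*} [Field K] (P : Polynomial K) :
    (Polynomial.aeval (jqModC K) P).coeff (- (P.natDegree : ℤ)) = P.leadingCoeff := by
  rw [Polynomial.aeval_eq_sum_range, HahnSeries.coeff_sum,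
    Finset.sum_eq_single_of_mem P.natDegree (by simp)]
  · rw [Algebra.smul_def, algebraMap_mul_coeff, coeff_jqModC_pow_self K, mul_one]
    rfl
  · intro i hi hne
    rw [Finset.mem_range] at hi
    rw [Algebra.smul_def, algebraMap_mul_coeff, coeff_jqModC_pow_of_lt K (by omega), mul_zero]

theorem aeval_jqModC_injective (K : Type*) [Field K] :
    Function.Injective (Polynomial.aeval (R := K) (jqModC K)) := by
  rw [injective_iff_map_eq_zero]
  intro P hP
  have := aeval_jqModC_coeff_natDegree P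
  rw [hP, HahnSeries.coeff_zero] at this
  exact Polynomial.leadingCoeff_eq_zero.mp this.symm

theorem transcendental_jqModC (K : Type*) [Field K] : Transcendental K (jqModC K) :=
  transcendental_iff_injective.mpr (aeval_jqModC_injective K)

/-- A level one form of weight `12 r` with coefficients in the subring `A` is `P(j) Δ ^ r`, where
`P ∈ A[X]` has degree at most `r`. -/
theorem exists_poly_of_isL1 (A : Subring ℂ) (r : ℕ) : ∀ a : ℍ → ℂ, IsL1 (12 * r) a →
    CoefIn A (qExpansion 1 a) →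
    ∃ P : Polynomial ℂ, P.natDegree ≤ r ∧ (∀ n, P.coeff n ∈ A) ∧
      LQ a = Polynomial.aeval (jqModC ℂ) P * LQ Delta ^ r ∧
      ∀ τ, a τ = P.eval (jf τ) * Delta τ ^ r := by
  induction r with
  | zero =>
    rintro _ ⟨F, rfl⟩ hA
    obtain ⟨c, hc⟩ := ModularFormClass.levelOne_weight_zero_const
      (ModularForm.mcast (by simp) F : ModularForm 𝒮ℒ 0)
    have hc' : (⇑F : ℍ → ℂ) = c • 1 := by
      ext τ
      have := congrFun hc τ
      simpa using this
    have hq : qExpansion 1 (⇑F : ℍ → ℂ) = c • 1 := by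
      rw [hc', UpperHalfPlane.qExpansion_smul AnQ.one, qExpansion_one]
    refine ⟨Polynomial.C c, by simp, fun n => ?_, ?_, fun τ => ?_⟩
    · rw [Polynomial.coeff_C]
      split_ifs with h
      · have := hA 0
        rw [hq] at this
        simpa using this
      · exact zero_mem A
    · rw [hc', LQ_smul' c AnQ.one, LQ_one, pow_zero, Polynomial.aeval_C]
    · rw [hc']
      simp
  | succ r ih =>
    rintro _ ⟨F, rfl⟩ hA
    have hE : AnQ (⇑E4cube : ℍ → ℂ) := E4cube_isL1.anQ
    obtain ⟨G, hG⟩ := (E4cube_isL1.pow (r + 1)).cast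
      (show (((r + 1 : ℕ) : ℤ) * 12) = 12 * ((r + 1 : ℕ) : ℤ) by ring)
    have hE4 : qExpansion 1 (⇑E4cube : ℍ → ℂ) = (eisenstein4.map (Int.castRingHom ℂ)) ^ 3 := by
      rw [coe_E4cube, qExp_pow isL1_E₄.anQ, qExpansion_E4]
    have hqG : qExpansion 1 (⇑G : ℍ → ℂ) = (eisenstein4.map (Int.castRingHom ℂ)) ^ (3 * (r + 1)) := by
      rw [hG, qExp_pow hE, hE4, ← pow_mul]
    have hG0 : (qExpansion 1 G).coeff 0 = 1 := by
      rw [hqG, PowerSeries.coeff_zero_eq_constantCoeff_apply, map_pow,
        ← PowerSeries.coeff_zero_eq_constantCoeff_apply, PowerSeries.coeff_map,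
        PowerSeries.coeff_zero_eq_constantCoeff_apply, constantCoeff_eisenstein4]
      simp
    obtain ⟨H, hH⟩ := sub_smul_isCuspForm F G hG0
    set c : ℂ := (qExpansion 1 F).coeff 0 with hc
    have hcA : c ∈ A := hA 0
    have hH' : (⇑H : ℍ → ℂ) = ⇑F - c • ⇑G := by
      ext z
      exact DFunLike.congr_fun hH z
    obtain ⟨g, hg, hg'⟩ := isL1Cusp_eq_delta'_mul ⟨H, rfl⟩
    have hb : IsL1 (12 * r) ((1728 : ℂ) • g) := (hg.smul 1728).cast (by push_cast; ring)
    set b : ℍ → ℂ := (1728 : ℂ) • g with hbdef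
    have hHb : (⇑H : ℍ → ℂ) = (⇑Delta : ℍ → ℂ) * b := by
      rw [hg', coe_delta', coe_Delta, hbdef, smul_mul_assoc, mul_smul_comm]
    have hFeq : (⇑F : ℍ → ℂ) = c • ⇑G + (⇑Delta : ℍ → ℂ) * b := by
      rw [← hHb, hH']; simp
    have hGA : AnQ (⇑G : ℍ → ℂ) := by rw [hG]; exact hE.pow _
    have hDA : AnQ (⇑Delta : ℍ → ℂ) := Delta_isL1.anQ
    have hbA : AnQ b := hb.anQ
    have hbcoef : CoefIn A (qExpansion 1 b) := by
      apply CoefIn.of_mul_delta
      have h1 : qExpansion 1 (⇑F : ℍ → ℂ) = c • qExpansion 1 (⇑G : ℍ → ℂ) +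
          qExpansion 1 b * deltaZ.map (Int.castRingHom ℂ) := by
        rw [hFeq, qExp_add (AnQ.smul c hGA) (hDA.mul hbA), qExp_mul hDA hbA,
          UpperHalfPlane.qExpansion_smul hGA, coe_Delta, qExpansion_delta, mul_comm (qExpansion 1 b)]
      have h2 : qExpansion 1 b * deltaZ.map (Int.castRingHom ℂ) =
          qExpansion 1 (⇑F : ℍ → ℂ) - c • qExpansion 1 (⇑G : ℍ → ℂ) := by
        rw [h1]; ring
      rw [h2]
      refine hA.sub (CoefIn.smul hcA ?_)
      rw [hqG]
      exact (CoefIn.map_int _).pow _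
    obtain ⟨P, hP1, hP2, hP3, hP4⟩ := ih b hb hbcoef
    refine ⟨P + Polynomial.C c * Polynomial.X ^ (r + 1), ?_, fun n => ?_, ?_, fun τ => ?_⟩
    · refine (Polynomial.natDegree_add_le _ _).trans (max_le (by omega) ?_)
      exact Polynomial.natDegree_C_mul_X_pow_le _ _
    · rw [Polynomial.coeff_add, Polynomial.coeff_C_mul, Polynomial.coeff_X_pow]
      refine add_mem (hP2 n) (mul_mem hcA ?_)
      split_ifs
      · exact one_mem A
      · exact zero_mem A
    · rw [hFeq, LQ_add (AnQ.smul c hGA) (hDA.mul hbA), LQ_mul hDA hbA, LQ_smul' c hGA, hG,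
        LQ_pow hE, ← jqModC_mul_LQ_Delta, hP3]
      simp only [map_add, map_mul, Polynomial.aeval_C, map_pow, Polynomial.aeval_X]
      ring
    · have h1 := congrFun hFeq τ
      simp only [Pi.add_apply, Pi.smul_apply, Pi.mul_apply, smul_eq_mul] at h1
      rw [h1, hP4, hG]
      have h2 : E4cube τ = jf τ * Delta τ := by
        have := congrFun coe_E4cube τ
        rw [this, Pi.pow_apply, ← jf_mul_discriminant]
        rfl
      simp only [Pi.pow_apply, Polynomial.eval_add, Polynomial.eval_mul, Polynomial.eval_C,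
        Polynomial.eval_pow, Polynomial.eval_X, h2]
      ring

end Fermat.Agent.FunField
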