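import Mathlib
import Fermat.Agent.FunField.LevelOneJ

/-!
# Forms of weight `12 m` divided by `Δ ^ m` are integral over `K[j]`
-/

set_option autoImplicit false

open UpperHalfPlane ModularForm MatrixGroups CongruenceSubgroup ModularCurve Polynomial
open Fermat.Agent.IntStr Fermat.Agent.MFF FermatJ

noncomputable section

namespace Fermat.Agent.FunField

/-- `y` satisfies an equation `y ^ n + ∑ Pᵢ(j) y ^ (n - i) = 0` with `deg Pᵢ ≤ m i`: it is integral
over `K[j]` and `y / j ^ m` is integral over `K[1/j]`. -/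
def JInt (K : Type*) [Field K] (m : ℕ) (y : LaurentSeries K) : Prop :=
  ∃ (n : ℕ) (P : ℕ → K[X]), 0 < n ∧ (∀ i ∈ Finset.Icc 1 n, (P i).natDegree ≤ m * i) ∧
    y ^ n + ∑ i ∈ Finset.Icc 1 n, aeval (jqModC K) (P i) * y ^ (n - i) = 0

theorem LQ_Delta_ne_zero : LQ Delta ≠ 0 := by
  rw [LQ_Delta]
  exact (isUnit_deltaL ℂ).ne_zero

/-- For `G` a modular form of weight `12 m` on `Γ₀(N)`, `G / Δ ^ m` is `JInt`. -/
theorem jInt_of_isMN {N : ℕ} [NeZero N] {m : ℕ} {G : ℍ → ℂ} (hG : IsMN N (12 * m) G) :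
    JInt ℂ m (LQ G / LQ Delta ^ m) := by
  obtain ⟨G, rfl⟩ := hG
  obtain ⟨n, c, hn, hc, h⟩ := exists_monic_relation_mod G
  have hc' : ∀ i ∈ Finset.Icc 1 n, IsL1 (12 * ((m * i : ℕ) : ℤ)) (c i) := fun i hi =>
    (hc i hi).cast (by push_cast; ring)
  have hex : ∀ i, ∃ P : ℂ[X], i ∈ Finset.Icc 1 n → P.natDegree ≤ m * i ∧
      LQ (c i) = aeval (jqModC ℂ) P * LQ Delta ^ (m * i) := by
    intro i
    by_cases hi : i ∈ Finset.Icc 1 n
    · obtain ⟨P, h1, -, h3, -⟩ := exists_poly_of_isL1 ⊤ (m * i) (c i) (hc' i hi)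
        (fun _ => Subring.mem_top _)
      exact ⟨P, fun _ => ⟨h1, h3⟩⟩
    · exact ⟨0, fun h => absurd h hi⟩
  choose P hP using hex
  refine ⟨n, P, hn, fun i hi => (hP i hi).1, ?_⟩
  have hGA : AnQ (⇑G : ℍ → ℂ) := IsMN.anQ ⟨G, rfl⟩
  have h1 : LQ G ^ n + ∑ i ∈ Finset.Icc 1 n, LQ (c i) * LQ G ^ (n - i) = 0 := by
    have h2 := congrArg LQ h
    rw [LQ_zero, LQ_add (hGA.pow n) (AnQ.sum fun i hi => (IsL1.anQ (hc i hi)).mul (hGA.pow _)),
      LQ_pow hGA, LQ_sum (fun i hi => (IsL1.anQ (hc i hi)).mul (hGA.pow _))] at h2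
    rw [← h2]
    congr 1
    refine Finset.sum_congr rfl fun i hi => ?_
    rw [LQ_mul (IsL1.anQ (hc i hi)) (hGA.pow _), LQ_pow hGA]
  have hD := LQ_Delta_ne_zero
  have h2 : (LQ G / LQ Delta ^ m) ^ n + ∑ i ∈ Finset.Icc 1 n,
      aeval (jqModC ℂ) (P i) * (LQ G / LQ Delta ^ m) ^ (n - i) =
      (LQ G ^ n + ∑ i ∈ Finset.Icc 1 n, LQ (c i) * LQ G ^ (n - i)) / LQ Delta ^ (m * n) := by
    rw [add_div, Finset.sum_div]
    congr 1
    · rw [div_pow, ← pow_mul]
    · refine Finset.sum_congr rfl fun i hi => ?_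
      rw [(hP i hi).2, div_pow, ← pow_mul]
      have hi' := Finset.mem_Icc.mp hi
      have : m * n = m * i + m * (n - i) := by
        rw [← mul_add]; congr 1; omega
      rw [this, pow_add]
      field_simp
  rw [h2, h1, zero_div]

/-- coefficientwise application of a linear functional to polynomials -/
def polyLin {K L : Type*} [Field K] [Field L] [Algebra K L] (φ : L →ₗ[K] K) (P : L[X]) : K[X] :=
  ∑ i ∈ Finset.range (P.natDegree + 1), monomial i (φ (P.coeff i))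

theorem polyLin_coeff {K L : Type*} [Field K] [Field L] [Algebra K L] (φ : L →ₗ[K] K) (P : L[X])
    (n : ℕ) : (polyLin φ P).coeff n = φ (P.coeff n) := by
  rw [polyLin, finsetSum_coeff]
  simp only [coeff_monomial]
  rw [Finset.sum_ite_eq']
  split_ifs with h
  · rfl
  · rw [Finset.mem_range, not_lt] at h
    rw [coeff_eq_zero_of_natDegree_lt (by omega), map_zero]

theorem polyLin_natDegree_le {K L : Type*} [Field K] [Field L] [Algebra K L] (φ : L →ₗ[K] K)
    (P : L[X]) : (polyLin φ P).natDegree ≤ P.natDegree := by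
  rw [natDegree_le_iff_coeff_eq_zero]
  intro n hn
  rw [polyLin_coeff, coeff_eq_zero_of_natDegree_lt hn, map_zero]

theorem coeffLin_aeval_mul {K L : Type*} [Field K] [Field L] [Algebra K L] (φ : L →ₗ[K] K)
    (P : L[X]) (y : LaurentSeries K) :
    coeffLin φ (aeval (jqModC L) P * emb K L y) = aeval (jqModC K) (polyLin φ P) * y := by
  rw [aeval_eq_sum_range, polyLin, map_sum, Finset.sum_mul, Finset.sum_mul, map_sum]
  refine Finset.sum_congr rfl fun i _ => ?_
  rw [aeval_monomial, Algebra.smul_def, mul_assoc, ← coeffMap_jqModC (algebraMap K L), ← map_pow,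
    ← map_mul, coeffLin_algebraMap_mul_emb, mul_assoc]

/-- Descent of `JInt` along `K → L`. -/
theorem JInt.descend {K L : Type*} [Field K] [Field L] [Algebra K L] {m : ℕ}
    {y : LaurentSeries K} (h : JInt L m (emb K L y)) : JInt K m y := by
  obtain ⟨n, P, hn, hP, h⟩ := h
  obtain ⟨φ, hφ⟩ : ∃ φ : L →ₗ[K] K, φ 1 = 1 := by
    obtain ⟨φ, hφ⟩ : ∃ φ : L →ₗ[K] K, φ 1 ≠ 0 := by
      by_contra hcon
      push Not at hcon
      exact one_ne_zero ((Module.forall_dual_apply_eq_zero_iff K (1 : L)).1 hcon)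
    exact ⟨(φ 1)⁻¹ • φ, by simp [hφ]⟩
  refine ⟨n, fun i => polyLin φ (P i), hn, fun i hi => (polyLin_natDegree_le φ _).trans (hP i hi), ?_⟩
  have h1 := congrArg (coeffLin φ) h
  rw [map_zero, map_add, map_sum] at h1
  rw [← h1]
  congr 1
  · have := coeffLin_aeval_mul φ 1 (y ^ n)
    rw [map_one, one_mul, map_pow] at this
    rw [this]
    have h2 : polyLin φ (1 : L[X]) = 1 := by
      ext k
      rw [polyLin_coeff, coeff_one, coeff_one]
      split_ifs
      · exact hφ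
      · exact map_zero _
    rw [h2, map_one, one_mul]
  · refine Finset.sum_congr rfl fun i _ => ?_
    rw [← map_pow, coeffLin_aeval_mul]

theorem emb_aeval {K L : Type*} [Field K] [Field L] [Algebra K L] (P : K[X]) :
    MFF.emb K L (aeval (jqModC K) P) = aeval (jqModC L) (P.map (algebraMap K L)) := by
  induction P using Polynomial.induction_on' with
  | add P Q hP hQ => rw [map_add, map_add, hP, hQ, Polynomial.map_add, map_add]
  | monomial n c =>
    rw [aeval_monomial, map_mul, map_pow, coeffMap_jqModC, Polynomial.map_monomial, aeval_monomial,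
      algebraMap_laurent, algebraMap_laurent, coeffMap_single]

theorem JInt.emb {K L : Type*} [Field K] [Field L] [Algebra K L] {m : ℕ}
    {y : LaurentSeries K} (h : JInt K m y) : JInt L m (emb K L y) := by
  obtain ⟨n, P, hn, hP, h⟩ := h
  refine ⟨n, fun i => (P i).map (algebraMap K L), hn, fun i hi => ?_, ?_⟩
  · exact (natDegree_map_le).trans (hP i hi)
  · have h1 := congrArg (MFF.emb K L) h
    rw [map_zero, map_add, map_sum, map_pow] at h1
    rw [← h1]
    congr 1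
    refine Finset.sum_congr rfl fun i _ => ?_
    rw [map_mul, map_pow, emb_aeval]

theorem isIntegral_of_sum {R S : Type*} [CommRing R] [CommRing S] [Algebra R S] {n : ℕ} {x : S}
    (a : ℕ → R) (h : x ^ n + ∑ i ∈ Finset.range n, algebraMap R S (a i) * x ^ i = 0) :
    IsIntegral R x := by
  refine ⟨X ^ n + ∑ i ∈ Finset.range n, C (a i) * X ^ i, ?_, ?_⟩
  · rcases Nat.eq_zero_or_pos n with rfl | hn
    · simp
    · refine monic_X_pow_add ?_
      refine (degree_sum_le _ _).trans_lt ?_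
      rw [Finset.sup_lt_iff (by exact WithBot.bot_lt_coe n)]
      intro i hi
      exact (degree_C_mul_X_pow_le _ _).trans_lt (by exact_mod_cast Finset.mem_range.mp hi)
  · simp only [eval₂_add, eval₂_pow, eval₂_X, eval₂_finsetSum, eval₂_mul, eval₂_C]
    exact h

theorem sum_Icc_flip {M : Type*} [AddCommMonoid M] (n : ℕ) (f : ℕ → M) :
    ∑ i ∈ Finset.Icc 1 n, f i = ∑ i ∈ Finset.range n, f (n - i) := by
  refine Finset.sum_nbij' (fun i => n - i) (fun i => n - i) ?_ ?_ ?_ ?_ ?_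
  · intro i hi
    rw [Finset.mem_Icc] at hi
    rw [Finset.mem_range]
    omega
  · intro i hi
    rw [Finset.mem_range] at hi
    rw [Finset.mem_Icc]
    omega
  · intro i hi
    rw [Finset.mem_Icc] at hi
    omega
  · intro i hi
    rw [Finset.mem_range] at hi
    omega
  · intro i hi
    rw [Finset.mem_Icc] at hi
    rw [show n - (n - i) = i by omega]

section Consequences

variable {K : Type*} [Field K] {m : ℕ} {y : LaurentSeries K}

theorem aeval_mem_adjoin (x : LaurentSeries K) (P : K[X]) : aeval x P ∈ Algebra.adjoin K {x} :=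
  aeval_mem_adjoin_singleton K x

theorem JInt.isIntegral (h : JInt K m y) : IsIntegral (Algebra.adjoin K {jqModC K}) y := by
  obtain ⟨n, P, hn, hP, h⟩ := h
  refine isIntegral_of_sum (n := n) (fun i => ⟨aeval (jqModC K) (P (n - i)), aeval_mem_adjoin _ _⟩) ?_
  rw [← h, sum_Icc_flip]
  congr 1
  refine Finset.sum_congr rfl fun i hi => ?_
  rw [Finset.mem_range] at hi
  rw [show n - (n - i) = i by omega]
  rfl

theorem jqModC_ne_zero' : jqModC K ≠ 0 := jqModC_ne_zero_of_nontrivial K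

theorem aeval_div_pow_mem (P : K[X]) {r : ℕ} (hr : P.natDegree ≤ r) :
    aeval (jqModC K) P / jqModC K ^ r ∈ Algebra.adjoin K {(jqModC K)⁻¹} := by
  rw [aeval_eq_sum_range, Finset.sum_div]
  refine sum_mem fun i hi => ?_
  rw [Finset.mem_range] at hi
  rw [Algebra.smul_def, mul_div_assoc]
  refine mul_mem (Subalgebra.algebraMap_mem _ _) ?_
  have : jqModC K ^ i / jqModC K ^ r = (jqModC K)⁻¹ ^ (r - i) := by
    rw [inv_pow, div_eq_iff (pow_ne_zero _ jqModC_ne_zero'), ← div_eq_inv_mul,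
      eq_div_iff (pow_ne_zero _ jqModC_ne_zero'), ← pow_add]
    congr 1
    omega
  rw [this]
  exact pow_mem (Algebra.subset_adjoin (Set.mem_singleton _)) _

theorem JInt.isIntegral_inv (h : JInt K m y) :
    IsIntegral (Algebra.adjoin K {(jqModC K)⁻¹}) (y / jqModC K ^ m) := by
  obtain ⟨n, P, hn, hP, h⟩ := h
  have hex : ∀ i, ∃ Q : Algebra.adjoin K {(jqModC K)⁻¹}, i ∈ Finset.Icc 1 n →
      (Q : LaurentSeries K) = aeval (jqModC K) (P i) / jqModC K ^ (m * i) := by
    intro i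
    by_cases hi : i ∈ Finset.Icc 1 n
    · exact ⟨⟨_, aeval_div_pow_mem (P i) (hP i hi)⟩, fun _ => rfl⟩
    · exact ⟨0, fun h => absurd h hi⟩
  choose Q hQ using hex
  refine isIntegral_of_sum (n := n) (fun i => Q (n - i)) ?_
  have h1 : (y ^ n + ∑ i ∈ Finset.Icc 1 n, aeval (jqModC K) (P i) * y ^ (n - i)) /
      jqModC K ^ (m * n) = 0 := by rw [h, zero_div]
  rw [← h1, sum_Icc_flip, add_div, Finset.sum_div, div_pow, ← pow_mul]
  congr 1
  refine Finset.sum_congr rfl fun i hi => ?_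
  rw [Finset.mem_range] at hi
  rw [show n - (n - i) = i by omega]
  change (Q (n - i) : LaurentSeries K) * _ = _
  rw [hQ (n - i) (by rw [Finset.mem_Icc]; omega), div_pow, ← pow_mul, div_mul_div_comm, ← pow_add]
  congr 2
  rw [← mul_add]
  congr 1
  omega

end Consequences

section Nonvanishing

open SlashInvariantForm Matrix.SpecialLinearGroup

variable {N : ℕ} [NeZero N]

theorem exists_relation_nonvanishing {k : ℤ}
    (f : ModularForm (Gamma0 N : Subgroup (GL (Fin 2) ℝ)) k) (hf : ∀ τ, f τ ≠ 0) :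
    ∃ (n : ℕ) (c : ℕ → ℍ → ℂ), 0 < n ∧ (∀ i ∈ Finset.Icc 1 n, IsL1 (k * i) (c i)) ∧
      (∀ τ, c n τ ≠ 0) ∧
      (⇑f : ℍ → ℂ) ^ n + ∑ i ∈ Finset.Icc 1 n, c i * (⇑f : ℍ → ℂ) ^ (n - i) = 0 := by
  have hF := conjFam_quotientFunc f
  refine ⟨Fintype.card (Cos N),
    fun i => (-1) ^ i * esymmFam (fun q : Cos N => quotientFunc f q) i,
    Fintype.card_pos_iff.mpr ⟨cos1 N⟩, fun i _ => ?_, fun τ => ?_, ?_⟩
  · have h := hF.esymm_isL1 i
    rcases neg_one_pow_eq_or (ℍ → ℂ) i with h1 | h1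
    · simp only [h1, one_mul]; exact h
    · simp only [h1, neg_one_mul]; exact h.neg
  · have h1 : ∀ q : Cos N, quotientFunc f q τ ≠ 0 := by
      refine Quotient.forall.mpr fun ⟨r, hr⟩ => ?_
      obtain ⟨g, rfl⟩ := hr
      have h2 := quotientFunc_mk_SL f g
      have h3 : quotientFunc f (QuotientGroup.mk ⟨mapGL ℝ g, ⟨g, rfl⟩⟩ : Cos N) τ =
        ((f : ℍ → ℂ) ∣[k] (g⁻¹ : SL(2, ℤ))) τ := congrFun h2 τ
      refine fun h4 => ?_
      have h5 := h3.symm.trans h4
      rw [ModularForm.SL_slash_apply] at h5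
      rcases mul_eq_zero.mp h5 with h5 | h5
      · exact hf _ h5
      · exact zpow_ne_zero _ (denom_ne_zero _ _) h5
    simp only [Pi.mul_apply, Pi.pow_apply, Pi.neg_apply, Pi.one_apply]
    refine mul_ne_zero (pow_ne_zero _ (by norm_num)) ?_
    rw [esymmFam, ← Finset.card_univ, Finset.powersetCard_self, Finset.sum_singleton,
      Finset.prod_apply]
    exact Finset.prod_ne_zero_iff.mpr fun q _ => h1 q
  · have := ConjFam.relation (fun q : Cos N => quotientFunc f q) (cos1 N)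
    rw [quotientFunc_cos1] at this
    exact this

/-- For `G` a nonvanishing modular form of weight `12 m` on `Γ₀(N)`, `Δ ^ m / G` is integral over
`ℂ[j]`. -/
theorem isIntegral_inv_of_nonvanishing {m : ℕ}
    (G : ModularForm (Gamma0 N : Subgroup (GL (Fin 2) ℝ)) (12 * m)) (hG : ∀ τ, G τ ≠ 0) :
    IsIntegral (Algebra.adjoin ℂ {jqModC ℂ}) (LQ G / LQ Delta ^ m)⁻¹ := by
  obtain ⟨n, c, hn, hc, hc0, h⟩ := exists_relation_nonvanishing G hG
  have hc' : ∀ i ∈ Finset.Icc 1 n, IsL1 (12 * ((m * i : ℕ) : ℤ)) (c i) := fun i hi =>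
    (hc i hi).cast (by push_cast; ring)
  have hex : ∀ i, ∃ P : ℂ[X], i ∈ Finset.Icc 1 n →
      LQ (c i) = aeval (jqModC ℂ) P * LQ Delta ^ (m * i) ∧
      ∀ τ, c i τ = P.eval (jf τ) * Delta τ ^ (m * i) := by
    intro i
    by_cases hi : i ∈ Finset.Icc 1 n
    · obtain ⟨P, h1, -, h3, h4⟩ := exists_poly_of_isL1 ⊤ (m * i) (c i) (hc' i hi)
        (fun _ => Subring.mem_top _)
      exact ⟨P, fun _ => ⟨h3, h4⟩⟩
    · exact ⟨0, fun h => absurd h hi⟩
  choose P hP using hex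
  have hnn : n ∈ Finset.Icc 1 n := by rw [Finset.mem_Icc]; omega
  -- the last coefficient is a nonzero constant
  obtain ⟨a, ha0, ha⟩ : ∃ a : ℂ, a ≠ 0 ∧ P n = C a := by
    have h1 : ∀ x : ℂ, (P n).eval x ≠ 0 := by
      intro x hx
      obtain ⟨τ, rfl⟩ := jf_surjective x
      have := (hP n hnn).2 τ
      rw [hx, zero_mul] at this
      exact hc0 τ this
    have h2 : (P n).degree = 0 := by
      by_contra hne
      obtain ⟨x, hx⟩ := IsAlgClosed.exists_root (P n) hne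
      exact h1 x hx
    have h3 := eq_C_of_degree_eq_zero h2
    refine ⟨(P n).coeff 0, fun h4 => ?_, h3⟩
    apply h1 0
    rw [h3, h4, C_0, eval_zero]
  have hGA : AnQ (⇑G : ℍ → ℂ) := IsMN.anQ ⟨G, rfl⟩
  have h1 : LQ G ^ n + ∑ i ∈ Finset.Icc 1 n, LQ (c i) * LQ G ^ (n - i) = 0 := by
    have h2 := congrArg LQ h
    rw [LQ_zero, LQ_add (hGA.pow n) (AnQ.sum fun i hi => (IsL1.anQ (hc i hi)).mul (hGA.pow _)),
      LQ_pow hGA, LQ_sum (fun i hi => (IsL1.anQ (hc i hi)).mul (hGA.pow _))] at h2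
    rw [← h2]
    congr 1
    refine Finset.sum_congr rfl fun i hi => ?_
    rw [LQ_mul (IsL1.anQ (hc i hi)) (hGA.pow _), LQ_pow hGA]
  have hD := LQ_Delta_ne_zero
  set y := LQ G / LQ Delta ^ m with hy
  have hy0 : y ≠ 0 := by
    refine div_ne_zero (fun h0 => ?_) (pow_ne_zero _ hD)
    have := (LQ_eq_zero_iff (N := N) (k := 12 * m) ⟨G, rfl⟩).mp h0
    exact hG I (congrFun this I)
  have h2 : y ^ n + ∑ i ∈ Finset.Icc 1 n, aeval (jqModC ℂ) (P i) * y ^ (n - i) = 0 := by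
    have h3 : y ^ n + ∑ i ∈ Finset.Icc 1 n, aeval (jqModC ℂ) (P i) * y ^ (n - i) =
      (LQ G ^ n + ∑ i ∈ Finset.Icc 1 n, LQ (c i) * LQ G ^ (n - i)) / LQ Delta ^ (m * n) := by
      rw [add_div, Finset.sum_div]
      congr 1
      · rw [hy, div_pow, ← pow_mul]
      · refine Finset.sum_congr rfl fun i hi => ?_
        rw [(hP i hi).1, hy, div_pow, ← pow_mul]
        have hi' := Finset.mem_Icc.mp hi
        have : m * n = m * i + m * (n - i) := by
          rw [← mul_add]; congr 1; omega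
        rw [this, pow_add]
        field_simp
    rw [h3, h1, zero_div]
  -- divide by `a y ^ n`
  refine isIntegral_of_sum (n := n) (fun i => ⟨aeval (jqModC ℂ) (C a⁻¹ * (if i = 0 then 1 else P i)),
    aeval_mem_adjoin _ _⟩) ?_
  have hsplit : ∑ i ∈ Finset.Icc 1 n, aeval (jqModC ℂ) (P i) * y ^ (n - i) =
      (∑ i ∈ Finset.Ico 1 n, aeval (jqModC ℂ) (P i) * y ^ (n - i)) +
        algebraMap ℂ (LaurentSeries ℂ) a := by
    have : Finset.Icc 1 n = Finset.Ico 1 (n + 1) := by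
      ext i; rw [Finset.mem_Icc, Finset.mem_Ico]; omega
    rw [this, Finset.sum_Ico_succ_top hn, Nat.sub_self, pow_zero, mul_one, ha, aeval_C]
  have ha' : algebraMap ℂ (LaurentSeries ℂ) a ≠ 0 := by
    rw [Ne, map_eq_zero]; exact ha0
  have hr : Finset.range n = insert 0 (Finset.Ico 1 n) := by
    ext i
    rw [Finset.mem_range, Finset.mem_insert, Finset.mem_Ico]
    omega
  rw [hr, Finset.sum_insert (by simp)]
  change _ + (aeval (jqModC ℂ) (C a⁻¹ * (if (0 : ℕ) = 0 then 1 else P 0)) * y⁻¹ ^ 0 +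
    ∑ i ∈ Finset.Ico 1 n, aeval (jqModC ℂ) (C a⁻¹ * (if i = 0 then 1 else P i)) * y⁻¹ ^ i) = 0
  have h4 : ∑ i ∈ Finset.Ico 1 n, aeval (jqModC ℂ) (C a⁻¹ * (if i = 0 then 1 else P i)) * y⁻¹ ^ i =
      (algebraMap ℂ (LaurentSeries ℂ) a)⁻¹ * (y⁻¹ ^ n *
        ∑ i ∈ Finset.Ico 1 n, aeval (jqModC ℂ) (P i) * y ^ (n - i)) := by
    rw [Finset.mul_sum, Finset.mul_sum]
    refine Finset.sum_congr rfl fun i hi => ?_
    rw [Finset.mem_Ico] at hi
    rw [if_neg (by omega), map_mul, aeval_C, map_inv₀]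
    have : y⁻¹ ^ i = y⁻¹ ^ n * y ^ (n - i) := by
      rw [inv_pow, inv_pow, eq_inv_mul_iff_mul_eq₀ (pow_ne_zero _ hy0), mul_inv_eq_iff_eq_mul₀
        (pow_ne_zero _ hy0), ← pow_add]
      congr 1
      omega
    rw [this]
    ring
  rw [h4, if_pos rfl, mul_one, aeval_C, map_inv₀, pow_zero, mul_one]
  have h5 : ∑ i ∈ Finset.Ico 1 n, aeval (jqModC ℂ) (P i) * y ^ (n - i) =
      - (y ^ n + algebraMap ℂ (LaurentSeries ℂ) a) := by
    rw [hsplit] at h2
    linear_combination h2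
  rw [h5]
  have h6 : y⁻¹ ^ n * y ^ n = 1 := by
    rw [← mul_pow, inv_mul_cancel₀ hy0, one_pow]
  have h7 : (algebraMap ℂ (LaurentSeries ℂ) a)⁻¹ * algebraMap ℂ (LaurentSeries ℂ) a = 1 :=
    inv_mul_cancel₀ ha'
  linear_combination (-(algebraMap ℂ (LaurentSeries ℂ) a)⁻¹) * h6 + (-(y⁻¹ ^ n)) * h7

end Nonvanishing

end Fermat.Agent.FunField
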