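import Mathlib
import Fermat.Agent.FunField.Integral

/-!
# `j(q^d)` is integral over `K[j]`
-/

set_option autoImplicit false

open UpperHalfPlane ModularForm MatrixGroups CongruenceSubgroup ModularCurve Polynomial
open Fermat.Agent.IntStr Fermat.Agent.MFF FermatJ

noncomputable section

namespace Fermat.Agent.FunField

theorem LQ_liftMod_Delta_ne_zero {d N : ℕ} [NeZero d] [NeZero N] (h : d ∣ N) :
    LQ (liftMod h Delta) ≠ 0 := by
  intro h0
  have := (LQ_eq_zero_iff (N := N) (k := 12) ⟨liftMod h Delta, rfl⟩).mp h0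
  have h1 := congrFun this I
  rw [liftMod_apply] at h1
  exact Delta_ne_zero _ h1

/-- `Δ(q^d) / Δ(q)` -/
theorem isIntegral_deltaRatio (d : ℕ) [NeZero d] :
    IsIntegral (Algebra.adjoin ℂ {jqModC ℂ}) (qExpand ℂ d (LQ Delta) / LQ Delta) := by
  have h := (jInt_of_isMN (N := d) (m := 1) (G := ⇑(liftMod (dvd_refl d) Delta))
    ⟨ModularForm.mcast (by norm_num) (liftMod (dvd_refl d) Delta), rfl⟩).isIntegral
  rwa [LQ_liftMod, pow_one] at h

theorem isIntegral_deltaRatio_inv (d : ℕ) [NeZero d] :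
    IsIntegral (Algebra.adjoin ℂ {jqModC ℂ}) (qExpand ℂ d (LQ Delta) / LQ Delta)⁻¹ := by
  have h := isIntegral_inv_of_nonvanishing (N := d) (m := 1)
    (ModularForm.mcast (by norm_num) (liftMod (dvd_refl d) Delta)) (fun τ => by
      rw [ModularForm.coe_mcast, liftMod_apply]
      exact Delta_ne_zero _)
  rw [ModularForm.coe_mcast, LQ_liftMod, pow_one] at h
  exact h

/-- `j(q^d)` is integral over `ℂ[j]`. -/
theorem isIntegral_jqd (d : ℕ) [NeZero d] :
    IsIntegral (Algebra.adjoin ℂ {jqModC ℂ}) (qExpand ℂ d (jqModC ℂ)) := by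
  have h1 := (jInt_of_isMN (N := d) (m := 1) (G := ⇑(liftMod (dvd_refl d) E4cube))
    ⟨ModularForm.mcast (by norm_num) (liftMod (dvd_refl d) E4cube), rfl⟩).isIntegral
  rw [LQ_liftMod, pow_one] at h1
  have h2 := h1.mul (isIntegral_deltaRatio_inv d)
  have h3 : qExpand ℂ d (LQ E4cube) / LQ Delta * (qExpand ℂ d (LQ Delta) / LQ Delta)⁻¹ =
      qExpand ℂ d (jqModC ℂ) := by
    have hD := LQ_Delta_ne_zero
    have hd : qExpand ℂ d (LQ Delta) ≠ 0 := by
      rw [← LQ_liftMod (dvd_refl d)]
      exact LQ_liftMod_Delta_ne_zero _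
    rw [← jqModC_mul_LQ_Delta, map_mul]
    field_simp
  rwa [h3] at h2

theorem exists_aeval_of_mem {K L : Type*} [Field K] [CommRing L] [Algebra K L] {s x : L}
    (h : x ∈ Algebra.adjoin K {s}) : ∃ P : K[X], aeval s P = x := by
  rw [Algebra.adjoin_singleton_eq_range_aeval] at h
  exact h

/-- integrality over `K[j]` in terms of an explicit relation -/
theorem exists_relation_of_isIntegral {K : Type*} [Field K] {y : LaurentSeries K}
    (h : IsIntegral (Algebra.adjoin K {jqModC K}) y) :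
    ∃ (n : ℕ) (P : ℕ → K[X]),
      y ^ n + ∑ i ∈ Finset.range n, aeval (jqModC K) (P i) * y ^ i = 0 := by
  obtain ⟨p, hp, hy⟩ := h
  have hex : ∀ i, ∃ P : K[X], aeval (jqModC K) P = (p.coeff i : LaurentSeries K) := by
    intro i
    exact exists_aeval_of_mem (p.coeff i).2
  choose P hP using hex
  refine ⟨p.natDegree, P, ?_⟩
  rw [eval₂_eq_sum_range, Finset.sum_range_succ, hp.coeff_natDegree, map_one, one_mul] at hy
  rw [← hy, add_comm]
  congr 1
  refine Finset.sum_congr rfl fun i _ => ?_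
  rw [hP]
  rfl

theorem exists_lin_one (K L : Type*) [Field K] [Field L] [Algebra K L] :
    ∃ φ : L →ₗ[K] K, φ 1 = 1 := by
  obtain ⟨φ, hφ⟩ : ∃ φ : L →ₗ[K] K, φ 1 ≠ 0 := by
    by_contra hcon
    push Not at hcon
    exact one_ne_zero ((Module.forall_dual_apply_eq_zero_iff K (1 : L)).1 hcon)
  exact ⟨(φ 1)⁻¹ • φ, by simp [hφ]⟩

theorem polyLin_one {K L : Type*} [Field K] [Field L] [Algebra K L] {φ : L →ₗ[K] K}
    (hφ : φ 1 = 1) : polyLin φ (1 : L[X]) = 1 := by
  ext k
  rw [polyLin_coeff, coeff_one, coeff_one]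
  split_ifs
  · exact hφ
  · exact map_zero _

/-- Descent of integrality over `K[j]`. -/
theorem isIntegral_descend {K L : Type*} [Field K] [Field L] [Algebra K L]
    {y : LaurentSeries K} (h : IsIntegral (Algebra.adjoin L {jqModC L}) (emb K L y)) :
    IsIntegral (Algebra.adjoin K {jqModC K}) y := by
  obtain ⟨n, P, h⟩ := exists_relation_of_isIntegral h
  obtain ⟨φ, hφ⟩ := exists_lin_one K L
  refine isIntegral_of_sum (n := n)
    (fun i => ⟨aeval (jqModC K) (polyLin φ (P i)), aeval_mem_adjoin _ _⟩) ?_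
  have h1 := congrArg (coeffLin φ) h
  rw [map_zero, map_add, map_sum] at h1
  rw [← h1]
  congr 1
  · have := coeffLin_aeval_mul φ 1 (y ^ n)
    rw [map_one, one_mul, map_pow] at this
    rw [this, polyLin_one hφ, map_one, one_mul]
  · refine Finset.sum_congr rfl fun i _ => ?_
    rw [← map_pow, coeffLin_aeval_mul]
    rfl

theorem isIntegral_emb {K L : Type*} [Field K] [Field L] [Algebra K L]
    {y : LaurentSeries K} (h : IsIntegral (Algebra.adjoin K {jqModC K}) y) :
    IsIntegral (Algebra.adjoin L {jqModC L}) (emb K L y) := by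
  obtain ⟨n, P, h⟩ := exists_relation_of_isIntegral h
  refine isIntegral_of_sum (n := n)
    (fun i => ⟨aeval (jqModC L) ((P i).map (algebraMap K L)), aeval_mem_adjoin _ _⟩) ?_
  have h1 := congrArg (MFF.emb K L) h
  rw [map_zero, map_add, map_sum, map_pow] at h1
  rw [← h1]
  congr 1
  refine Finset.sum_congr rfl fun i _ => ?_
  rw [map_mul, map_pow, emb_aeval]
  rfl

/-- `j(q^d)` is integral over `ℚ[j]`. -/
theorem isIntegral_jqd_rat (d : ℕ) [NeZero d] :
    IsIntegral (Algebra.adjoin ℚ {jqModC ℚ}) (qExpand ℚ d (jqModC ℚ)) := by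
  apply isIntegral_descend (K := ℚ) (L := ℂ)
  rw [emb_qExpand_jqModC]
  exact isIntegral_jqd d

/-- `j(q^d)` is integral over `K[j]` for any field `K` of characteristic zero. -/
theorem isIntegral_jqd' (K : Type*) [Field K] [CharZero K] (d : ℕ) [NeZero d] :
    IsIntegral (Algebra.adjoin K {jqModC K}) (qExpand K d (jqModC K)) := by
  have := isIntegral_emb (L := K) (isIntegral_jqd_rat d)
  rwa [emb_qExpand_jqModC] at this

/-- an element integral over `K[x]` is algebraic over `K⟮x⟯`. -/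
theorem isAlgebraic_of_isIntegral_adjoin {K L : Type*} [Field K] [Field L] [Algebra K L] {x y : L}
    (h : IsIntegral (Algebra.adjoin K {x}) y) :
    IsAlgebraic (IntermediateField.adjoin K {x}) y := by
  obtain ⟨p, hp, hy⟩ := h
  have hle : Algebra.adjoin K {x} ≤ (IntermediateField.adjoin K {x}).toSubalgebra :=
    IntermediateField.algebra_adjoin_le_adjoin K {x}
  refine IsIntegral.isAlgebraic ⟨p.map (Subalgebra.inclusion hle).toRingHom, hp.map _, ?_⟩
  rw [eval₂_map]
  exact hy

theorem isAlgebraic_jqd (K : Type*) [Field K] [CharZero K] (d : ℕ) [NeZero d] :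
    IsAlgebraic (IntermediateField.adjoin K {jqModC K}) (qExpand K d (jqModC K)) :=
  isAlgebraic_of_isIntegral_adjoin (isIntegral_jqd' K d)

/-- The form needed for Hecke inputs. -/
theorem isAlgebraic_qExpand_jq (d : ℕ) [NeZero d] :
    IsAlgebraic (IntermediateField.adjoin ℚ {jq}) (qExpand ℚ d jq) :=
  isAlgebraic_jqd ℚ d

end Fermat.Agent.FunField
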