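import Mathlib
import Fermat.Agent.FunField.Alg
import Fermat.Agent.IntStr.Lagrange

/-!
# Quotients of modular forms on `Γ₀(N)` lie in `ℂ(j, j_N)`
-/

set_option autoImplicit false

open UpperHalfPlane ModularForm MatrixGroups CongruenceSubgroup ModularCurve Polynomial
open Fermat.Agent.IntStr Fermat.Agent.MFF FermatJ

noncomputable section

namespace Fermat.Agent.FunField

section DeltaRatio

variable (K : Type*) [Field K] [CharZero K]

theorem thetaD_jqModC_ne_zero : thetaD K (jqModC K) ≠ 0 := by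
  intro h
  have h1 := congrArg (fun x : LaurentSeries K => x.coeff (-1)) h
  simp only [thetaD_coeff, coeff_jqModC_neg_one, HahnSeries.coeff_zero] at h1
  norm_num at h1

/-- `x ↦ θ(x) / θ(j)`, i.e. `d/dj` -/
def ddj : LaurentSeries K →+ LaurentSeries K :=
  (AddMonoidHom.mulRight (thetaD K (jqModC K))⁻¹).comp (thetaD K)

omit [CharZero K] in
theorem ddj_apply (x : LaurentSeries K) : ddj K x = thetaD K x * (thetaD K (jqModC K))⁻¹ := rfl

omit [CharZero K] in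
theorem ddj_mul (x y : LaurentSeries K) : ddj K (x * y) = x * ddj K y + y * ddj K x := by
  rw [ddj_apply, ddj_apply, ddj_apply, thetaD_mul]
  ring

omit [CharZero K] in
theorem ddj_algebraMap (c : K) : ddj K (algebraMap K _ c) = 0 := by
  rw [ddj_apply, thetaD_algebraMap, zero_mul]

theorem ddj_j : ddj K (jqModC K) = 1 := by
  rw [ddj_apply, mul_inv_cancel₀ (thetaD_jqModC_ne_zero K)]

omit [CharZero K] in
theorem ddj_inv (x : LaurentSeries K) : ddj K x⁻¹ = - ddj K x * (x⁻¹) ^ 2 := by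
  rcases eq_or_ne x 0 with rfl | hx
  · simp
  have h := ddj_mul K x x⁻¹
  rw [mul_inv_cancel₀ hx, ← map_one (algebraMap K (LaurentSeries K)), ddj_algebraMap] at h
  have : ddj K x⁻¹ = - (x⁻¹ * ddj K x) * x⁻¹ := by
    field_simp
    have h' : x * ddj K x⁻¹ = - (x⁻¹ * ddj K x) := by linear_combination -h
    rw [mul_comm] at h'
    field_simp at h'
    linear_combination h'
  rw [this]
  ring

theorem ddj_mem {c : LaurentSeries K} (hc : c ∈ IntermediateField.adjoin K {jqModC K}) :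
    ddj K c ∈ IntermediateField.adjoin K {jqModC K} := by
  induction hc using IntermediateField.adjoin_induction with
  | mem x hx =>
    rw [Set.mem_singleton_iff] at hx
    rw [hx, ddj_j]
    exact one_mem _
  | algebraMap c => rw [ddj_algebraMap]; exact zero_mem _
  | add x y _ _ hx hy => rw [map_add]; exact add_mem hx hy
  | inv x hx' hx =>
    rw [ddj_inv]
    exact mul_mem (neg_mem hx) (pow_mem (inv_mem hx') 2)
  | mul x y hx' hy' hx hy =>
    rw [ddj_mul]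
    exact add_mem (mul_mem hx' hy) (mul_mem hy' hx)

/-- `d(j_d)/dj ∈ K(j, j_d)` -/
theorem ddj_jqd_mem (d : ℕ) [NeZero d] : ddj K (qExpand K d (jqModC K)) ∈
    IntermediateField.adjoin K {jqModC K, qExpand K d (jqModC K)} := by
  set E := IntermediateField.adjoin K {jqModC K} with hE
  set F := IntermediateField.adjoin E {qExpand K d (jqModC K)} with hF
  have h1 : ddj K (qExpand K d (jqModC K)) ∈ F := by
    refine leibniz_mem_adjoin (E := E) (ddj K) (ddj_mul K) F (fun c => ?_)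
      (IntermediateField.mem_adjoin_simple_self _ _) ?_
    · exact F.algebraMap_mem ⟨_, ddj_mem K c.2⟩
    · have hint : IsIntegral E (qExpand K d (jqModC K)) := (isAlgebraic_jqd K d).isIntegral
      exact (minpoly.irreducible hint).separable
  have h2 := IntermediateField.adjoin_adjoin_left K {jqModC K} {qExpand K d (jqModC K)}
  have h3 : ddj K (qExpand K d (jqModC K)) ∈ F.restrictScalars K := h1
  rw [h2] at h3
  exact h3

omit [CharZero K] in
theorem qExpand_deltaL (d : ℕ) [NeZero d] :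
    thetaD K (qExpand K d (jqModC K)) ^ 6 = (d : LaurentSeries K) ^ 6 *
      (qExpand K d (jqModC K) ^ 4 * (qExpand K d (jqModC K) - 1728) ^ 3 * qExpand K d (deltaL K)) := by
  rw [thetaD_qExpand, mul_pow, ← map_pow, thetaD_jqModC_pow]
  simp only [map_mul, map_pow, map_sub, map_ofNat]

omit [CharZero K] in
theorem deltaL_ne_zero : deltaL K ≠ 0 := (isUnit_deltaL K).ne_zero

theorem jqModC_sub_ne_zero : jqModC K - 1728 ≠ 0 := by
  intro h
  have h1 := congrArg (fun x : LaurentSeries K => x.coeff (-1)) h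
  have h2 : (1728 : LaurentSeries K) = algebraMap K _ 1728 := (map_ofNat _ 1728).symm
  rw [h2, algebraMap_laurent] at h1
  simp only [HahnSeries.coeff_zero] at h1
  rw [HahnSeries.coeff_sub, coeff_jqModC_neg_one, HahnSeries.coeff_single_of_ne (by norm_num)] at h1
  norm_num at h1

/-- `Δ(q^d) / Δ(q) ∈ K(j, j_d)` -/
theorem deltaRatio_mem (d : ℕ) [NeZero d] : qExpand K d (deltaL K) / deltaL K ∈
    IntermediateField.adjoin K {jqModC K, qExpand K d (jqModC K)} := by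
  set F := IntermediateField.adjoin K {jqModC K, qExpand K d (jqModC K)} with hF
  have hj : jqModC K ∈ F := IntermediateField.subset_adjoin _ _ (Set.mem_insert _ _)
  have hjd : qExpand K d (jqModC K) ∈ F :=
    IntermediateField.subset_adjoin _ _ (Set.mem_insert_of_mem _ rfl)
  have h6 := ddj_jqd_mem K d
  have hd : (d : LaurentSeries K) ≠ 0 := by
    rw [← map_natCast (algebraMap K (LaurentSeries K)), Ne, map_eq_zero]
    exact_mod_cast NeZero.ne d
  have h0 := thetaD_jqModC_ne_zero K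
  have hj0 : jqModC K ≠ 0 := jqModC_ne_zero'
  have hj1 := jqModC_sub_ne_zero K
  have hjd0 : qExpand K d (jqModC K) ≠ 0 := by
    rw [Ne, map_eq_zero_iff _ (qExpand_injective d)]; exact hj0
  have hjd1 : qExpand K d (jqModC K) - 1728 ≠ 0 := by
    have : qExpand K d (jqModC K) - 1728 = qExpand K d (jqModC K - 1728) := by
      rw [map_sub, map_ofNat]
    rw [this, Ne, map_eq_zero_iff _ (qExpand_injective d)]; exact hj1
  have hD := deltaL_ne_zero K
  have h1728 : (1728 : LaurentSeries K) ∈ F := by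
    have : (1728 : LaurentSeries K) = algebraMap K _ 1728 := (map_ofNat _ 1728).symm
    rw [this]
    exact F.algebraMap_mem _
  have hdF : (d : LaurentSeries K) ∈ F := natCast_mem F d
  have key : qExpand K d (deltaL K) / deltaL K = (ddj K (qExpand K d (jqModC K))) ^ 6 *
      (jqModC K ^ 4 * (jqModC K - 1728) ^ 3) / ((d : LaurentSeries K) ^ 6 *
      (qExpand K d (jqModC K) ^ 4 * (qExpand K d (jqModC K) - 1728) ^ 3)) := by
    rw [ddj_apply, mul_pow, inv_pow, qExpand_deltaL, thetaD_jqModC_pow]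
    field_simp
  rw [key]
  exact div_mem (mul_mem (pow_mem h6 6) (mul_mem (pow_mem hj 4) (pow_mem (sub_mem hj h1728) 3)))
    (mul_mem (pow_mem hdF 6) (mul_mem (pow_mem hjd 4) (pow_mem (sub_mem hjd h1728) 3)))

end DeltaRatio

/-! ### ratios of level one forms -/

theorem IsL1.eq_zero_of_neg {w : ℤ} {a : ℍ → ℂ} (ha : IsL1 w a) (hw : w < 0) : a = 0 := by
  obtain ⟨F, rfl⟩ := ha
  rw [rank_zero_iff_forall_zero.mp (levelOne_neg_weight_rank_zero hw) F]
  rfl

theorem LQ_L1_ne_zero {w : ℤ} {a : ℍ → ℂ} (ha : IsL1 w a) (h : a ≠ 0) : LQ a ≠ 0 := fun h0 =>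
  h ((LQ_eq_zero_iff (ha.isMN 1)).mp h0)

/-- a ratio of level one forms of the same weight lies in `ℂ(j)` -/
theorem isL1_ratio_mem {w : ℤ} {a b : ℍ → ℂ} (ha : IsL1 w a) (hb : IsL1 w b) (hb0 : b ≠ 0) :
    LQ a / LQ b ∈ IntermediateField.adjoin ℂ {jqModC ℂ} := by
  rcases lt_or_ge w 0 with hw | hw
  · exact absurd (IsL1.eq_zero_of_neg hb hw) hb0
  lift w to ℕ using hw
  have h1 : IsL1 (12 * w) (a * b ^ 11) := (ha.mul (hb.pow 11)).cast (by push_cast; ring)
  have h2 : IsL1 (12 * w) (b ^ 12) := (hb.pow 12).cast (by push_cast; ring)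
  obtain ⟨P, -, -, hP, -⟩ := exists_poly_of_isL1 ⊤ w _ h1 (fun _ => Subring.mem_top _)
  obtain ⟨Q, -, -, hQ, -⟩ := exists_poly_of_isL1 ⊤ w _ h2 (fun _ => Subring.mem_top _)
  have hb1 := LQ_L1_ne_zero hb hb0
  have h3 : LQ a / LQ b = aeval (jqModC ℂ) P / aeval (jqModC ℂ) Q := by
    have hD := pow_ne_zero w LQ_Delta_ne_zero
    have h4 : LQ a / LQ b = LQ (a * b ^ 11) / LQ (b ^ 12) := by
      rw [LQ_mul ha.anQ (hb.anQ.pow 11), LQ_pow hb.anQ, LQ_pow hb.anQ]
      field_simp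
    rw [h4, hP, hQ, mul_div_mul_right _ _ hD]
  rw [h3]
  have key : ∀ P : ℂ[X], aeval (jqModC ℂ) P ∈ IntermediateField.adjoin ℂ {jqModC ℂ} := fun P =>
    IntermediateField.algebra_adjoin_le_adjoin _ _ (aeval_mem_adjoin _ _)
  exact div_mem (key P) (key Q)

/-! ### ratios of forms of level `N` -/

theorem coe_theta_eq (N : ℕ) [NeZero N] :
    (⇑(theta N) : ℍ → ℂ) = (1728 : ℂ) • ⇑(liftMod (dvd_refl N) Delta) := by
  ext τ
  rw [theta_apply, Pi.smul_apply, liftMod_apply]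
  rfl

/-- **D2**: ratios of forms on `Γ₀(N)` of the same weight lie in `ℂ(j, j_N)`. -/
theorem ratio_mem {N : ℕ} [NeZero N] {k : ℤ} {f g : ℍ → ℂ} (hf : IsMN N k f) (hg : IsMN N k g)
    (hg0 : g ≠ 0) : LQ f / LQ g ∈ modularFunctionFieldC ℂ N := by
  obtain ⟨f, rfl⟩ := hf
  obtain ⟨g, rfl⟩ := hg
  obtain ⟨m, l, D, hD, hD0, hlag⟩ := lagrange_universal N
  obtain ⟨a, ha, haf⟩ := hlag k f
  obtain ⟨b, hb, hbg⟩ := hlag k g
  have hfA : AnQ (⇑f : ℍ → ℂ) := IsMN.anQ ⟨f, rfl⟩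
  have hgA : AnQ (⇑g : ℍ → ℂ) := IsMN.anQ ⟨g, rfl⟩
  have hθ : IsMN N 12 (⇑(theta N) : ℍ → ℂ) := by
    rw [coe_theta_eq]
    exact IsMN.smul _ ⟨_, rfl⟩
  have hD1 := LQ_L1_ne_zero hD hD0
  have hg1 : LQ (⇑g : ℍ → ℂ) ≠ 0 := fun h0 => hg0 ((LQ_eq_zero_iff ⟨g, rfl⟩).mp h0)
  have hexp : ∀ (h : ModularForm (Gamma0 N : Subgroup (GL (Fin 2) ℝ)) k) (c : ℕ → ℍ → ℂ),
      (∀ i < m, IsL1 (k + l - 12 * i) (c i)) →
      D * (⇑h : ℍ → ℂ) = ∑ i ∈ Finset.range m, c i * (⇑(theta N) : ℍ → ℂ) ^ i →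
      LQ D * LQ h = ∑ i ∈ Finset.range m, LQ (c i) * LQ (⇑(theta N) : ℍ → ℂ) ^ i := by
    intro h c hc hrel
    have hhA : AnQ (⇑h : ℍ → ℂ) := IsMN.anQ ⟨h, rfl⟩
    have h1 := congrArg LQ hrel
    rw [LQ_mul hD.anQ hhA, LQ_sum (fun i hi =>
      (IsL1.anQ (hc i (Finset.mem_range.mp hi))).mul (hθ.anQ.pow i))] at h1
    rw [h1]
    refine Finset.sum_congr rfl fun i hi => ?_
    rw [LQ_mul (IsL1.anQ (hc i (Finset.mem_range.mp hi))) (hθ.anQ.pow i), LQ_pow hθ.anQ]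
  have h1 := hexp f a ha haf
  have h2 := hexp g b hb hbg
  -- some coefficient of `g` is nonzero
  obtain ⟨i₀, hi₀, hb0⟩ : ∃ i₀ < m, b i₀ ≠ 0 := by
    by_contra hcon
    push Not at hcon
    rw [Finset.sum_eq_zero (fun i hi => by
      rw [hcon i (Finset.mem_range.mp hi), LQ_zero, zero_mul])] at h2
    exact mul_ne_zero hD1 hg1 h2
  set F := modularFunctionFieldC ℂ N with hF
  have hjF : IntermediateField.adjoin ℂ {jqModC ℂ} ≤ F := by
    rw [IntermediateField.adjoin_le_iff, Set.singleton_subset_iff]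
    exact jqModC_mem ℂ N
  have hu : LQ (⇑(theta N) : ℍ → ℂ) / LQ Delta ∈ F := by
    have h3 := deltaRatio_mem ℂ N
    rw [← LQ_Delta] at h3
    have h4 : LQ (⇑(theta N) : ℍ → ℂ) = algebraMap ℂ _ 1728 * qExpand ℂ N (LQ Delta) := by
      rw [coe_theta_eq, LQ_smul' _ (IsMN.anQ (k := 12) ⟨_, rfl⟩), LQ_liftMod]
    rw [h4, mul_div_assoc]
    exact mul_mem (F.algebraMap_mem _) h3
  have hD' := LQ_Delta_ne_zero
  have hb1 : LQ (b i₀) ≠ 0 := LQ_L1_ne_zero (hb i₀ hi₀) hb0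
  have hmem : ∀ c : ℕ → ℍ → ℂ, (∀ i < m, IsL1 (k + l - 12 * i) (c i)) →
      (∑ i ∈ Finset.range m, LQ (c i) * LQ (⇑(theta N) : ℍ → ℂ) ^ i) /
        (LQ (b i₀) * LQ Delta ^ i₀) ∈ F := by
    intro c hc
    rw [Finset.sum_div]
    refine sum_mem fun i hi => ?_
    have hi' := Finset.mem_range.mp hi
    have h5 : LQ (c i) * LQ (⇑(theta N) : ℍ → ℂ) ^ i / (LQ (b i₀) * LQ Delta ^ i₀) =
        LQ (c i * (⇑Delta : ℍ → ℂ) ^ i) / LQ (b i₀ * (⇑Delta : ℍ → ℂ) ^ i₀) *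
          (LQ (⇑(theta N) : ℍ → ℂ) / LQ Delta) ^ i := by
      rw [LQ_mul (hc i hi').anQ (Delta_isL1.anQ.pow i), LQ_mul (hb i₀ hi₀).anQ (Delta_isL1.anQ.pow i₀),
        LQ_pow Delta_isL1.anQ, LQ_pow Delta_isL1.anQ, div_pow]
      field_simp
    rw [h5]
    refine mul_mem (hjF (isL1_ratio_mem (w := k + l) ?_ ?_ ?_)) (pow_mem hu i)
    · exact ((hc i hi').mul (Delta_isL1.pow i)).cast (by ring)
    · exact ((hb i₀ hi₀).mul (Delta_isL1.pow i₀)).cast (by ring)
    · intro h6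
      have h7 := congrArg LQ h6
      rw [LQ_zero, LQ_mul (hb i₀ hi₀).anQ (Delta_isL1.anQ.pow i₀), LQ_pow Delta_isL1.anQ] at h7
      exact mul_ne_zero hb1 (pow_ne_zero _ hD') h7
  have hfin : LQ (⇑f : ℍ → ℂ) / LQ (⇑g : ℍ → ℂ) =
      ((∑ i ∈ Finset.range m, LQ (a i) * LQ (⇑(theta N) : ℍ → ℂ) ^ i) /
        (LQ (b i₀) * LQ Delta ^ i₀)) /
      ((∑ i ∈ Finset.range m, LQ (b i) * LQ (⇑(theta N) : ℍ → ℂ) ^ i) /
        (LQ (b i₀) * LQ Delta ^ i₀)) := by
    rw [← h1, ← h2]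
    field_simp
  rw [hfin]
  exact div_mem (hmem a ha) (hmem b hb)

/-- all `j(q^d)`, `d ∣ N`, lie in `ℂ(j, j_N)` -/
theorem qExpand_jqModC_mem_complex {d N : ℕ} [NeZero d] [NeZero N] (hd : d ∣ N) :
    qExpand ℂ d (jqModC ℂ) ∈ modularFunctionFieldC ℂ N := by
  have h := ratio_mem (N := N) (k := 12) (f := ⇑(liftMod hd E4cube)) (g := ⇑(liftMod hd Delta))
    ⟨_, rfl⟩ ⟨_, rfl⟩ (fun h0 => by
      have h1 := congrFun h0 I
      rw [liftMod_apply] at h1
      exact Delta_ne_zero _ h1)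
  have h2 : qExpand ℂ d (LQ Delta) ≠ 0 := by
    rw [← LQ_liftMod hd]
    exact LQ_liftMod_Delta_ne_zero _
  rwa [LQ_liftMod, LQ_liftMod, ← jqModC_mul_LQ_Delta, map_mul, mul_div_assoc, div_self h2,
    mul_one] at h

/-- **Generation**: `j(q^d) ∈ ℚ(j, j_N)` for all `d ∣ N`. -/
theorem functionFieldGeneration (N : ℕ) [NeZero N] : FunctionFieldGeneration N := by
  intro d hd hne
  have := hne
  have h := qExpand_jqModC_mem_complex hd
  apply mem_adjoin_of_coeffMap_mem (K := ℚ) (Ω := ℂ)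
  have h1 : emb ℚ ℂ (qExpand ℚ d jq) = qExpand ℂ d (jqModC ℂ) := emb_qExpand_jqModC d
  have h2 : emb ℚ ℂ '' {jq, qExpand ℚ N jq} = {jqModC ℂ, jqNModC ℂ N} := by
    rw [Set.image_pair]
    congr 1
    · exact coeffMap_jqModC (algebraMap ℚ ℂ)
    · rw [show emb ℚ ℂ (qExpand ℚ N jq) = _ from emb_qExpand_jqModC N]
      rfl
  rw [h1, h2]
  exact h

/-- `j(q^d) ∈ K(j, j_N)` for all `d ∣ N`, for `K` of characteristic zero. -/
theorem qExpand_jqModC_mem (K : Type*) [Field K] [CharZero K] {d N : ℕ} [NeZero d] [NeZero N]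
    (hd : d ∣ N) : qExpand K d (jqModC K) ∈ modularFunctionFieldC K N := by
  have h := functionFieldGeneration N d hd inferInstance
  have h3 := (coeffMap_mem_adjoin_iff (K := ℚ) (Ω := K)).mpr h
  have h1 : emb ℚ K (qExpand ℚ d jq) = qExpand K d (jqModC K) := emb_qExpand_jqModC d
  have h2 : emb ℚ K '' {jq, qExpand ℚ N jq} = {jqModC K, jqNModC K N} := by
    rw [Set.image_pair]
    congr 1
    · exact coeffMap_jqModC (algebraMap ℚ K)
    · rw [show emb ℚ K (qExpand ℚ N jq) = _ from emb_qExpand_jqModC N]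
      rfl
  rw [h1, h2] at h3
  exact h3

theorem modularFunctionFieldFullC_eq (K : Type*) [Field K] [CharZero K] (N : ℕ) [NeZero N] :
    modularFunctionFieldFullC K N = modularFunctionFieldC K N := by
  apply le_antisymm
  · rw [modularFunctionFieldFullC, IntermediateField.adjoin_le_iff]
    rintro _ ⟨d, hd0, hd, rfl⟩
    exact qExpand_jqModC_mem K hd
  · rw [modularFunctionFieldC, IntermediateField.adjoin_le_iff]
    rintro _ (rfl | rfl)
    · refine IntermediateField.subset_adjoin _ _ ⟨1, inferInstance, one_dvd N, ?_⟩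
      rw [qExpand_one_apply]
    · exact IntermediateField.subset_adjoin _ _ ⟨N, inferInstance, dvd_refl N, rfl⟩

theorem modularFunctionFieldFull_eq (N : ℕ) [NeZero N] :
    modularFunctionFieldFull N = modularFunctionField N := by
  apply le_antisymm
  · rw [modularFunctionFieldFull, IntermediateField.adjoin_le_iff]
    rintro _ ⟨d, hd0, hd, rfl⟩
    exact functionFieldGeneration N d hd hd0
  · exact modularFunctionField_le_full N

/-- ratios of forms with algebraic coefficients -/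
theorem mem_full_of_ratio {K : Type*} [Field K] [Algebra K ℂ] {N : ℕ} [NeZero N] {k : ℤ}
    {f g : ℍ → ℂ} (hf : IsMN N k f) (hg : IsMN N k g) (hg0 : g ≠ 0) {y : LaurentSeries K}
    (hy : emb K ℂ y = LQ f / LQ g) : y ∈ modularFunctionFieldFullC K N := by
  rw [← emb_mem_full_iff (Ω := ℂ), modularFunctionFieldFullC_eq, hy]
  exact ratio_mem hf hg hg0

/-- `E₄² E₆` -/
theorem isL1_E14 : IsL1 14 ((⇑(E₄ : ModularForm 𝒮ℒ 4) : ℍ → ℂ) ^ 2 * (⇑(E₆ : ModularForm 𝒮ℒ 6) : ℍ → ℂ)) :=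
  ((isL1_E₄.pow 2).mul isL1_E₆).cast (by norm_num)

theorem LQ_E14 : LQ ((⇑(E₄ : ModularForm 𝒮ℒ 4) : ℍ → ℂ) ^ 2 * (⇑(E₆ : ModularForm 𝒮ℒ 6) : ℍ → ℂ)) =
    E4L ℂ ^ 2 * E6L ℂ := by
  rw [LQ_mul (isL1_E₄.anQ.pow 2) isL1_E₆.anQ, LQ_pow isL1_E₄.anQ, LQ_E4, LQ_E6]

theorem thetaD_jqModC_eq (K : Type*) [Field K] :
    thetaD K (jqModC K) = - (E4L K ^ 2 * E6L K) / deltaL K := by
  rw [eq_div_iff (deltaL_ne_zero K), thetaD_jqModC_mul_deltaL]

/-- weight two forms divided by `θ(j)` lie in `ℂ(j, j_N)` -/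
theorem weight_two_div_theta_mem {N : ℕ} [NeZero N] {f : ℍ → ℂ} (hf : IsMN N 2 f) :
    LQ f / thetaD ℂ (jqModC ℂ) ∈ modularFunctionFieldC ℂ N := by
  have h14 : LQ ((⇑(E₄ : ModularForm 𝒮ℒ 4) : ℍ → ℂ) ^ 2 * (⇑(E₆ : ModularForm 𝒮ℒ 6) : ℍ → ℂ)) ≠ 0 := by
    rw [LQ_E14]
    intro h0
    have := thetaD_jqModC_ne_zero ℂ
    rw [thetaD_jqModC_eq, h0, neg_zero, zero_div] at this
    exact this rfl
  have h := ratio_mem (N := N) (k := 14) (f := f * (⇑Delta : ℍ → ℂ)) (g := _)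
    ((hf.mul (Delta_isL1.isMN N)).cast (by norm_num)) (isL1_E14.isMN N)
    (fun h0 => h14 (by rw [h0, LQ_zero]))
  rw [LQ_E14, LQ_mul hf.anQ Delta_isL1.anQ, LQ_Delta] at h
  rw [LQ_E14] at h14
  have h2 : LQ f / thetaD ℂ (jqModC ℂ) = - (LQ f * deltaL ℂ / (E4L ℂ ^ 2 * E6L ℂ)) := by
    have hD := deltaL_ne_zero ℂ
    rw [thetaD_jqModC_eq]
    field_simp
  rw [h2]
  exact neg_mem h

end Fermat.Agent.FunField
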