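import Mathlib

/-!
# Minimal polynomials over `K(x)` of elements integral over `K[x]`, `K[1/x]`
-/

set_option autoImplicit false

open Polynomial IntermediateField

noncomputable section

namespace Fermat.Agent.FunField.MinpolyJ

section General

theorem minpoly_coeff_mem_range {R E F : Type*} [CommRing R] [IsDomain R] [IsIntegrallyClosed R]
    [Field E] [Field F] [Algebra R E] [IsFractionRing R E] [Algebra E F] [Algebra R F]
    [IsScalarTower R E F] {y : F} (h : IsIntegral R y) (i : ℕ) :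
    ∃ r : R, algebraMap R E r = (minpoly E y).coeff i := by
  rw [minpoly.isIntegrallyClosed_eq_field_fractions' E h, coeff_map]
  exact ⟨_, rfl⟩

end General

variable {K F : Type*} [Field K] [Field F] [Algebra K F]

/-- for `x` transcendental, `K[x]` is a polynomial ring -/
def polyEquiv {x : F} (hx : Transcendental K x) : K[X] ≃ₐ[K] Algebra.adjoin K {x} :=
  (AlgEquiv.ofInjective (aeval x) (transcendental_iff_injective.mp hx)).trans
    (Subalgebra.equivOfEq _ _ (Algebra.adjoin_singleton_eq_range_aeval K x).symm)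

theorem isIntegrallyClosed_adjoin {x : F} (hx : Transcendental K x) :
    IsIntegrallyClosed (Algebra.adjoin K {x}) :=
  IsIntegrallyClosed.of_equiv (polyEquiv hx).toRingEquiv

theorem exists_aeval_of_mem {s x : F} (h : x ∈ Algebra.adjoin K {s}) : ∃ P : K[X], aeval s P = x := by
  rw [Algebra.adjoin_singleton_eq_range_aeval] at h
  exact h

open scoped IntermediateField.algebraAdjoinAdjoin in
theorem coeff_eq_aeval {x : F} (hx : Transcendental K x) {y : F}
    (hy : IsIntegral (Algebra.adjoin K {x}) y) (i : ℕ) :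
    ∃ P : K[X], ((minpoly K⟮x⟯ y).coeff i : F) = aeval x P := by
  have := isIntegrallyClosed_adjoin hx
  obtain ⟨r, hr⟩ := minpoly_coeff_mem_range (R := Algebra.adjoin K {x}) (E := K⟮x⟯) hy i
  obtain ⟨P, hP⟩ := exists_aeval_of_mem r.2
  refine ⟨P, ?_⟩
  rw [hP, ← hr]
  rfl

theorem coeff_eq_aeval' {E : IntermediateField K F} {x : F} (hE : E = K⟮x⟯)
    (hx : Transcendental K x) {y : F}
    (hy : IsIntegral (Algebra.adjoin K {x}) y) (i : ℕ) :
    ∃ P : K[X], ((minpoly E y).coeff i : F) = aeval x P := by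
  subst hE
  exact coeff_eq_aeval hx hy i

theorem adjoin_inv (x : F) : K⟮x⁻¹⟯ = K⟮x⟯ := by
  apply le_antisymm
  · rw [adjoin_simple_le_iff]
    exact inv_mem (mem_adjoin_simple_self K x)
  · rw [adjoin_simple_le_iff]
    have := inv_mem (mem_adjoin_simple_self K x⁻¹)
    rwa [inv_inv] at this

theorem transcendental_inv {x : F} (hx : Transcendental K x) : Transcendental K x⁻¹ := by
  intro h
  have := h.inv
  rw [inv_inv] at this
  exact hx this

/-- `y` satisfies an equation `y ^ n + ∑ Pᵢ(x) y ^ (n - i) = 0` with `deg Pᵢ ≤ m i`. -/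
def XInt (K : Type*) {F : Type*} [Field K] [CommRing F] [Algebra K F] (x : F) (m : ℕ) (y : F) : Prop :=
  ∃ (n : ℕ) (P : ℕ → K[X]), 0 < n ∧ (∀ i ∈ Finset.Icc 1 n, (P i).natDegree ≤ m * i) ∧
    y ^ n + ∑ i ∈ Finset.Icc 1 n, aeval x (P i) * y ^ (n - i) = 0

theorem isIntegral_of_sum {R S : Type*} [CommRing R] [CommRing S] [Algebra R S] {n : ℕ} {x : S}
    (a : ℕ → R) (h : x ^ n + ∑ i ∈ Finset.range n, algebraMap R S (a i) * x ^ i = 0) :
    IsIntegral R x := by
  refine ⟨X ^ n + ∑ i ∈ Finset.range n, C (a i) * X ^ i, ?_, ?_⟩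
  · rcases Nat.eq_zero_or_pos n with rfl | hn
    · simp
    · refine monic_X_pow_add ?_
      refine (degree_sum_le _ _).trans_lt ?_
      rw [Finset.sup_lt_iff (by exact WithBot.bot_lt_coe n)]
      intro i hi
      exact (degree_C_mul_X_pow_le _ _).trans_lt (by exact_mod_cast Finset.mem_range.mp hi)
  · simp only [eval₂_add, eval₂_pow, eval₂_X, eval₂_finsetSum, eval₂_mul, eval₂_C]
    exact h

theorem sum_Icc_flip {M : Type*} [AddCommMonoid M] (n : ℕ) (f : ℕ → M) :
    ∑ i ∈ Finset.Icc 1 n, f i = ∑ i ∈ Finset.range n, f (n - i) := by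
  refine Finset.sum_nbij' (fun i => n - i) (fun i => n - i) ?_ ?_ ?_ ?_ ?_
  · intro i hi
    rw [Finset.mem_Icc] at hi
    rw [Finset.mem_range]
    omega
  · intro i hi
    rw [Finset.mem_range] at hi
    rw [Finset.mem_Icc]
    omega
  · intro i hi
    rw [Finset.mem_Icc] at hi
    omega
  · intro i hi
    rw [Finset.mem_range] at hi
    omega
  · intro i hi
    rw [Finset.mem_Icc] at hi
    rw [show n - (n - i) = i by omega]

theorem aeval_mem_adjoin (x : F) (P : K[X]) : aeval x P ∈ Algebra.adjoin K {x} :=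
  aeval_mem_adjoin_singleton K x

theorem XInt.isIntegral {x y : F} {m : ℕ} (h : XInt K x m y) :
    IsIntegral (Algebra.adjoin K {x}) y := by
  obtain ⟨n, P, hn, hP, h⟩ := h
  refine isIntegral_of_sum (n := n) (fun i => ⟨aeval x (P (n - i)), aeval_mem_adjoin _ _⟩) ?_
  rw [← h, sum_Icc_flip]
  congr 1
  refine Finset.sum_congr rfl fun i hi => ?_
  rw [Finset.mem_range] at hi
  rw [show n - (n - i) = i by omega]
  rfl

theorem aeval_div_pow_mem {x : F} (hx : x ≠ 0) (P : K[X]) {r : ℕ} (hr : P.natDegree ≤ r) :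
    aeval x P / x ^ r ∈ Algebra.adjoin K {x⁻¹} := by
  rw [aeval_eq_sum_range, Finset.sum_div]
  refine sum_mem fun i hi => ?_
  rw [Finset.mem_range] at hi
  rw [Algebra.smul_def, mul_div_assoc]
  refine mul_mem (Subalgebra.algebraMap_mem _ _) ?_
  have : x ^ i / x ^ r = x⁻¹ ^ (r - i) := by
    rw [inv_pow, div_eq_iff (pow_ne_zero _ hx), ← div_eq_inv_mul,
      eq_div_iff (pow_ne_zero _ hx), ← pow_add]
    congr 1
    omega
  rw [this]
  exact pow_mem (Algebra.subset_adjoin (Set.mem_singleton _)) _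

theorem XInt.isIntegral_inv {x y : F} {m : ℕ} (hx : x ≠ 0) (h : XInt K x m y) :
    IsIntegral (Algebra.adjoin K {x⁻¹}) (y / x ^ m) := by
  obtain ⟨n, P, hn, hP, h⟩ := h
  have hex : ∀ i, ∃ Q : Algebra.adjoin K {x⁻¹}, i ∈ Finset.Icc 1 n →
      (Q : F) = aeval x (P i) / x ^ (m * i) := by
    intro i
    by_cases hi : i ∈ Finset.Icc 1 n
    · exact ⟨⟨_, aeval_div_pow_mem hx (P i) (hP i hi)⟩, fun _ => rfl⟩
    · exact ⟨0, fun h => absurd h hi⟩
  choose Q hQ using hex
  refine isIntegral_of_sum (n := n) (fun i => Q (n - i)) ?_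
  have h1 : (y ^ n + ∑ i ∈ Finset.Icc 1 n, aeval x (P i) * y ^ (n - i)) /
      x ^ (m * n) = 0 := by rw [h, zero_div]
  rw [← h1, sum_Icc_flip, add_div, Finset.sum_div, div_pow, ← pow_mul]
  congr 1
  refine Finset.sum_congr rfl fun i hi => ?_
  rw [Finset.mem_range] at hi
  rw [show n - (n - i) = i by omega]
  change (Q (n - i) : F) * _ = _
  rw [hQ (n - i) (by rw [Finset.mem_Icc]; omega), div_pow, ← pow_mul, div_mul_div_comm, ← pow_add]
  congr 2
  rw [← mul_add]
  congr 1
  omega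

/-- degree bound -/
theorem natDegree_le_of_inv {x : F} (hx : Transcendental K x) {P R : K[X]} {r : ℕ}
    (h : aeval x P = x ^ r * aeval x⁻¹ R) : P.natDegree ≤ r := by
  have hx0 : x ≠ 0 := by
    rintro rfl
    exact hx (isAlgebraic_zero)
  rcases eq_or_ne P 0 with rfl | hP0
  · simp
  set s := R.natDegree with hs
  set Q : K[X] := ∑ i ∈ Finset.range (s + 1), C (R.coeff i) * X ^ (s - i) with hQ
  have h1 : aeval x (X ^ s * P) = aeval x (X ^ r * Q) := by
    rw [map_mul, map_mul, map_pow, map_pow, aeval_X, h, hQ, map_sum, aeval_eq_sum_range,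
      Finset.mul_sum, Finset.mul_sum, Finset.mul_sum]
    refine Finset.sum_congr rfl fun i hi => ?_
    rw [Finset.mem_range] at hi
    rw [map_mul, aeval_C, map_pow, aeval_X, Algebra.smul_def]
    have h2 : x ^ s * x⁻¹ ^ i = x ^ (s - i) := by
      rw [inv_pow, mul_inv_eq_iff_eq_mul₀ (pow_ne_zero _ hx0), ← pow_add]
      congr 1
      omega
    rw [← h2]
    ring
  have h3 := transcendental_iff_injective.mp hx h1
  have h4 : (X ^ s * P).natDegree = s + P.natDegree := by
    rw [natDegree_mul (pow_ne_zero _ X_ne_zero) hP0, natDegree_X_pow]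
  have h5 : (X ^ r * Q).natDegree ≤ r + s := by
    refine natDegree_mul_le.trans ?_
    rw [natDegree_X_pow]
    refine Nat.add_le_add_left ?_ r
    refine natDegree_sum_le_of_forall_le _ _ fun i _ => ?_
    exact (natDegree_C_mul_X_pow_le _ _).trans (Nat.sub_le _ _)
  rw [h3] at h4
  omega

/-- The minimal polynomial over `K(x)` of an element `y` integral over `K[x]` with `y / x ^ m`
integral over `K[1/x]`. -/
theorem exists_coeff {x : F} (hx : Transcendental K x) {y : F} {m : ℕ}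
    (hy : IsIntegral (Algebra.adjoin K {x}) y)
    (hy' : IsIntegral (Algebra.adjoin K {x⁻¹}) (y / x ^ m)) (i : ℕ)
    (hi : i ≤ (minpoly K⟮x⟯ y).natDegree) :
    ∃ P : K[X], P.natDegree ≤ m * ((minpoly K⟮x⟯ y).natDegree - i) ∧
      ((minpoly K⟮x⟯ y).coeff i : F) = aeval x P := by
  have hx0 : x ≠ 0 := by
    rintro rfl
    exact hx (isAlgebraic_zero)
  obtain ⟨P, hP⟩ := coeff_eq_aeval hx hy i
  obtain ⟨R, hR⟩ := coeff_eq_aeval' (E := K⟮x⟯) (adjoin_inv x).symm (transcendental_inv hx) hy' i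
  refine ⟨P, ?_, hP⟩
  have hyE : IsIntegral K⟮x⟯ y := by
    obtain ⟨p, hp, hy⟩ := hy
    have hle : Algebra.adjoin K {x} ≤ K⟮x⟯.toSubalgebra :=
      IntermediateField.algebra_adjoin_le_adjoin K {x}
    refine ⟨p.map (Subalgebra.inclusion hle).toRingHom, hp.map _, ?_⟩
    rw [eval₂_map]
    exact hy
  set g : K⟮x⟯ := (AdjoinSimple.gen K x)⁻¹ ^ m with hg
  have hgen : (AdjoinSimple.gen K x : K⟮x⟯) ≠ 0 := by
    intro h
    exact hx0 (by simpa using congrArg (fun z : K⟮x⟯ => (z : F)) h)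
  have hg0 : g ≠ 0 := pow_ne_zero _ (inv_ne_zero hgen)
  have h1 := IsIntegrallyClosed.minpoly_smul hg0 hyE
  have h2 : g • y = y / x ^ m := by
    rw [Algebra.smul_def, div_eq_inv_mul, ← inv_pow]
    congr 1
  rw [h2] at h1
  rw [h1, coeff_scaleRoots] at hR
  refine natDegree_le_of_inv hx (r := m * ((minpoly K⟮x⟯ y).natDegree - i)) (R := R) ?_
  rw [← hR, ← hP]
  have h3 : ((g ^ ((minpoly K⟮x⟯ y).natDegree - i) : K⟮x⟯) : F) =
      (x ^ (m * ((minpoly K⟮x⟯ y).natDegree - i)))⁻¹ := by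
    rw [hg, pow_mul]
    push_cast
    rw [AdjoinSimple.coe_gen, inv_pow, inv_pow]
  push_cast
  push_cast at h3
  rw [h3]
  field_simp

end Fermat.Agent.FunField.MinpolyJ
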