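import Mathlib
import Fermat.Agent.FunField.MinpolyJ
import Fermat.Agent.JRED.DescentNorm
import Fermat.Agent.JRED.RedDatum

/-!
# Integrality with respect to the Gauss valuation

`C` a constant reduction of `F / K` to `F' / k`, `x ∈ C.O` with transcendental reduction `x'`, and
`[F : K(x)] ≤ [F' : k(x')]` (finite). Then elements `y ∈ C.O` satisfying a relation
`y ^ n + ∑ Pᵢ(x) y ^ (n - i) = 0`, `deg Pᵢ ≤ m i`, also satisfy one with coefficients in `A`.
-/

set_option autoImplicit false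

open Polynomial IntermediateField AlgebraicCurve

noncomputable section

namespace Fermat.Agent.FunField.GaussInt

open Fermat.Agent.JRED Fermat.Agent.JRED.Descent MinpolyJ

variable {K k : Type*} [Field K] [Field k] {A : ValuationSubring K} {π : A →+* k}

/-- primitive polynomials -/
theorem exists_primitive (π : A →+* k) (P : K[X]) (hP : P ≠ 0) :
    ∃ (c : K) (P₁ : A[X]), c ≠ 0 ∧ P₁.map π ≠ 0 ∧ P = C c * P₁.map A.subtype := by
  classical
  have h1 : (fun i : Fin (P.natDegree + 1) => P.coeff i) ≠ 0 := by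
    intro h
    apply hP
    ext i
    rcases lt_or_ge i (P.natDegree + 1) with hi | hi
    · exact congrFun h ⟨i, hi⟩
    · rw [coeff_eq_zero_of_natDegree_lt (by omega), coeff_zero]
  obtain ⟨i₀, h0, hi⟩ := exists_normalize A _ h1
  have hcoef : ∀ i, P.coeff i / P.coeff i₀ ∈ A := by
    intro i
    rcases lt_or_ge i (P.natDegree + 1) with hi' | hi'
    · exact hi ⟨i, hi'⟩
    · rw [coeff_eq_zero_of_natDegree_lt (by omega), zero_div]
      exact A.zero_mem
  let P₁ : A[X] := ∑ i ∈ Finset.range (P.natDegree + 1), monomial i ⟨_, hcoef i⟩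
  have hP₁ : ∀ i, ((P₁.coeff i : A) : K) = P.coeff i / P.coeff i₀ := by
    intro i
    simp only [P₁, finsetSum_coeff, coeff_monomial]
    rw [Finset.sum_ite_eq']
    split_ifs with h
    · rfl
    · rw [Finset.mem_range, not_lt] at h
      rw [coeff_eq_zero_of_natDegree_lt (p := P) (by omega), zero_div]
      rfl
  refine ⟨P.coeff i₀, P₁, h0, fun h => ?_, ?_⟩
  · have h2 := congrArg (fun Q : k[X] => Q.coeff i₀) h
    simp only [coeff_map, coeff_zero] at h2
    have h3 : P₁.coeff i₀ = 1 := Subtype.ext (by rw [hP₁, div_self h0]; rfl)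
    rw [h3, map_one] at h2
    exact one_ne_zero h2
  · ext i
    rw [coeff_C_mul, coeff_map]
    change _ = _ * ((P₁.coeff i : A) : K)
    rw [hP₁, mul_div_cancel₀ _ h0]

variable {F F' : Type*} [Field F] [Field F'] [Algebra K F] [Algebra k F']
  (C : ConstRed A π F F')

theorem const_mem_iff (hπ : Function.Surjective π) {c : K} : algebraMap K F c ∈ C.O ↔ c ∈ A := by
  constructor
  · intro h
    by_contra hc
    obtain ⟨hi, h0⟩ := res_inv_eq_zero hπ hc
    have hc0 : c ≠ 0 := fun h0 => hc (h0 ▸ A.zero_mem)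
    have h1 := C.res_algebraMap ⟨c⁻¹, hi⟩
    rw [h0, map_zero] at h1
    have h2 : (⟨algebraMap K F c, h⟩ : C.O) *
        ⟨algebraMap K F ((⟨c⁻¹, hi⟩ : A) : K), C.algebraMap_mem ⟨c⁻¹, hi⟩⟩ = 1 := by
      apply Subtype.ext
      change algebraMap K F c * algebraMap K F c⁻¹ = 1
      rw [← map_mul, mul_inv_cancel₀ hc0, map_one]
    have h3 := congrArg C.res h2
    rw [map_mul, h1, mul_zero, map_one] at h3
    exact zero_ne_one h3
  · exact fun h => C.algebraMap_mem ⟨c, h⟩

variable {x : F} (hx : x ∈ C.O)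

include hx in
theorem aeval_mem (P : A[X]) : aeval x (P.map A.subtype) ∈ C.O := by
  rw [aeval_eq_sum_range]
  refine sum_mem fun i _ => ?_
  rw [Algebra.smul_def, coeff_map]
  exact mul_mem (C.algebraMap_mem _) (pow_mem hx i)

theorem res_aeval (P : A[X]) :
    C.res ⟨_, aeval_mem C hx P⟩ = aeval (C.res ⟨x, hx⟩) (P.map π) := by
  induction P using Polynomial.induction_on' with
  | add P Q hP hQ =>
    have h1 : (⟨_, aeval_mem C hx (P + Q)⟩ : C.O) = ⟨_, aeval_mem C hx P⟩ + ⟨_, aeval_mem C hx Q⟩ := by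
      apply Subtype.ext
      change aeval x ((P + Q).map A.subtype) = aeval x (P.map A.subtype) + aeval x (Q.map A.subtype)
      rw [Polynomial.map_add, map_add]
    rw [h1, map_add, hP, hQ, Polynomial.map_add, map_add]
  | monomial n a =>
    have h1 : (⟨_, aeval_mem C hx (monomial n a)⟩ : C.O) =
        ⟨algebraMap K F a, C.algebraMap_mem a⟩ * ⟨x, hx⟩ ^ n := by
      apply Subtype.ext
      change aeval x ((monomial n a).map A.subtype) = algebraMap K F a * x ^ n
      rw [Polynomial.map_monomial, aeval_monomial]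
      rfl
    rw [h1, map_mul, map_pow, C.res_algebraMap, Polynomial.map_monomial, aeval_monomial]

variable (hπ : Function.Surjective π) (htr : Transcendental k (C.res ⟨x, hx⟩))

include htr in
theorem transcendental_of_res : Transcendental K x := by
  rw [transcendental_iff]
  intro P hP
  by_contra hne
  obtain ⟨c, P₁, hc, hP₁, hPeq⟩ := exists_primitive π P hne
  rw [hPeq, map_mul, aeval_C, mul_eq_zero] at hP
  rcases hP with hP | hP
  · exact hc (by simpa using hP)
  · have h1 := res_aeval C hx P₁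
    have h2 : (⟨_, aeval_mem C hx P₁⟩ : C.O) = 0 := Subtype.ext hP
    rw [h2, map_zero] at h1
    exact hP₁ ((transcendental_iff.mp htr) _ h1.symm)

include hπ htr

/-- The residue of an element of `K(x) ∩ O` lies in `k(x')`. -/
theorem res_mem {a : F} (ha : a ∈ K⟮x⟯) (haO : a ∈ C.O) :
    C.res ⟨a, haO⟩ ∈ k⟮C.res ⟨x, hx⟩⟯ := by
  rcases eq_or_ne a 0 with rfl | ha0
  · have : (⟨0, haO⟩ : C.O) = 0 := rfl
    rw [this, map_zero]
    exact zero_mem _
  rw [mem_adjoin_simple_iff] at ha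
  obtain ⟨P, Q, rfl⟩ := ha
  have hP0 : P ≠ 0 := by rintro rfl; simp at ha0
  have hQ0 : Q ≠ 0 := by rintro rfl; simp at ha0
  obtain ⟨c, P₁, hc, hP₁, hP⟩ := exists_primitive π P hP0
  obtain ⟨d, Q₁, hd, hQ₁, hQ⟩ := exists_primitive π Q hQ0
  set u : C.O := ⟨_, aeval_mem C hx P₁⟩ with hu
  set v : C.O := ⟨_, aeval_mem C hx Q₁⟩ with hv
  have hu1 : C.res u = aeval (C.res ⟨x, hx⟩) (P₁.map π) := res_aeval C hx P₁
  have hv1 : C.res v = aeval (C.res ⟨x, hx⟩) (Q₁.map π) := res_aeval C hx Q₁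
  have hu0 : C.res u ≠ 0 := by
    rw [hu1]; exact fun h => hP₁ ((transcendental_iff.mp htr) _ h)
  have hv0 : C.res v ≠ 0 := by
    rw [hv1]; exact fun h => hQ₁ ((transcendental_iff.mp htr) _ h)
  have hu' : (u : F)⁻¹ ∈ C.O := inv_mem_of_res_ne_zero C u.2 hu0
  have hv'' : (v : F) ≠ 0 := by
    intro h; apply hv0; rw [show v = 0 from Subtype.ext h, map_zero]
  have hu'' : (u : F) ≠ 0 := by
    intro h; apply hu0; rw [show u = 0 from Subtype.ext h, map_zero]
  have hd' : algebraMap K F d ≠ 0 := by simpa using hd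
  have hcd : c / d ∈ A := by
    rw [← const_mem_iff C hπ]
    have h3 : algebraMap K F (c / d) = (aeval x P / aeval x Q) * (v * (u : F)⁻¹) := by
      rw [hP, hQ, map_mul, map_mul, aeval_C, aeval_C, map_div₀]
      change _ = algebraMap K F c * (u : F) / (algebraMap K F d * (v : F)) * _
      field_simp
    rw [h3]
    exact mul_mem haO (mul_mem v.2 hu')
  have h4 : (⟨aeval x P / aeval x Q, haO⟩ : C.O) * v =
      ⟨algebraMap K F ((⟨c / d, hcd⟩ : A) : K), C.algebraMap_mem ⟨c / d, hcd⟩⟩ * u := by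
    apply Subtype.ext
    change aeval x P / aeval x Q * (v : F) = algebraMap K F (c / d) * (u : F)
    rw [hP, hQ, map_mul, map_mul, aeval_C, aeval_C, map_div₀]
    change algebraMap K F c * (u : F) / (algebraMap K F d * (v : F)) * _ = _
    field_simp
  have h5 := congrArg C.res h4
  rw [map_mul, map_mul, C.res_algebraMap, hu1, hv1] at h5
  rw [hv1] at hv0
  rw [eq_div_of_mul_eq hv0 h5]
  have key : ∀ R : k[X], aeval (C.res ⟨x, hx⟩) R ∈ k⟮C.res ⟨x, hx⟩⟯ := fun R =>
    IntermediateField.algebra_adjoin_le_adjoin _ _ (aeval_mem_adjoin _ _)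
  exact div_mem (mul_mem (IntermediateField.algebraMap_mem _ _) (key _)) (key _)

/-- orthogonality over `K(x)` -/
theorem orthogonal {ι : Type*} [Fintype ι] (w : ι → C.O)
    (hw : LinearIndependent k⟮C.res ⟨x, hx⟩⟯ fun i => C.res (w i)) (a : ι → K⟮x⟯) (ha : a ≠ 0) :
    ∃ i₀, a i₀ ≠ 0 ∧ (∀ i, ((a i / a i₀ : K⟮x⟯) : F) ∈ C.O) ∧
      ∃ h : (∑ i, a i • (w i : F)) / (a i₀ : F) ∈ C.O, C.res ⟨_, h⟩ ≠ 0 := by
  obtain ⟨i₀, h0, hi⟩ := exists_normalize (C.O.comap (algebraMap K⟮x⟯ F)) a ha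
  have hi' : ∀ i, ((a i / a i₀ : K⟮x⟯) : F) ∈ C.O := fun i => hi i
  refine ⟨i₀, h0, hi', ?_⟩
  have h0' : ((a i₀ : K⟮x⟯) : F) ≠ 0 := by
    intro h; exact h0 (Subtype.ext h)
  have key : (∑ i, a i • (w i : F)) / (a i₀ : F) =
      ((∑ i, (⟨_, hi' i⟩ : C.O) * w i : C.O) : F) := by
    push_cast
    rw [Finset.sum_div]
    refine Finset.sum_congr rfl fun i _ => ?_
    rw [Algebra.smul_def]
    change (a i : F) * (w i : F) / (a i₀ : F) = ((a i / a i₀ : K⟮x⟯) : F) * (w i : F)
    push_cast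
    field_simp
  have hmem : (∑ i, a i • (w i : F)) / (a i₀ : F) ∈ C.O := by
    rw [key]
    exact Subtype.property _
  refine ⟨hmem, ?_⟩
  have h1 : (⟨_, hmem⟩ : C.O) = ∑ i, (⟨_, hi' i⟩ : C.O) * w i := Subtype.ext key
  rw [h1, map_sum]
  intro h2
  have h3 : ∑ i, (⟨_, res_mem C hx hπ htr (a i / a i₀ : K⟮x⟯).2 (hi' i)⟩ :
      k⟮C.res ⟨x, hx⟩⟯) • C.res (w i) = 0 := by
    rw [← h2]
    refine Finset.sum_congr rfl fun i _ => ?_
    rw [map_mul, Algebra.smul_def]
    rfl
  have h4 := Fintype.linearIndependent_iff.mp hw _ h3 i₀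
  have h5 : C.res ⟨_, hi' i₀⟩ = 0 := congrArg Subtype.val h4
  have h6 : (⟨_, hi' i₀⟩ : C.O) = 1 := Subtype.ext (by
    change ((a i₀ / a i₀ : K⟮x⟯) : F) = 1
    rw [div_self h0]; rfl)
  rw [h6, map_one] at h5
  exact one_ne_zero h5

theorem coeff_mem {ι : Type*} [Fintype ι] (w : ι → C.O)
    (hw : LinearIndependent k⟮C.res ⟨x, hx⟩⟯ fun i => C.res (w i)) (a : ι → K⟮x⟯)
    (h : ∑ i, a i • (w i : F) ∈ C.O) (i : ι) : (a i : F) ∈ C.O := by
  by_cases ha : a = 0
  · rw [ha]
    exact zero_mem _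
  obtain ⟨i₀, h0, hi, h1, h2⟩ := orthogonal C hx hπ htr w hw a ha
  have h0' : ((a i₀ : K⟮x⟯) : F) ≠ 0 := by
    intro h; exact h0 (Subtype.ext h)
  have h3 := inv_mem_of_res_ne_zero C h1 h2
  have hne : (∑ i, a i • (w i : F)) / (a i₀ : F) ≠ 0 := by
    intro h5
    apply h2
    have h6 : (⟨_, h1⟩ : C.O) = 0 := Subtype.ext h5
    rw [h6, map_zero]
  have hs : (∑ i, a i • (w i : F)) ≠ 0 := by
    intro h5
    rw [h5, zero_div] at hne
    exact hne rfl
  have h4 : (a i₀ : F) ∈ C.O := by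
    have h5 : (a i₀ : F) =
        (∑ i, a i • (w i : F)) * ((∑ i, a i • (w i : F)) / (a i₀ : F))⁻¹ := by
      rw [inv_div, mul_div_assoc', mul_comm, mul_div_assoc, div_self hs, mul_one]
    rw [h5]
    exact mul_mem h h3
  have h6 : (a i : F) = ((a i / a i₀ : K⟮x⟯) : F) * (a i₀ : F) := by
    push_cast
    field_simp
  rw [h6]
  exact mul_mem (hi i) h4

theorem linearIndependent_lift {ι : Type*} [Fintype ι] (w : ι → C.O)
    (hw : LinearIndependent k⟮C.res ⟨x, hx⟩⟯ fun i => C.res (w i)) :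
    LinearIndependent K⟮x⟯ fun i => (w i : F) := by
  rw [Fintype.linearIndependent_iff]
  intro a ha
  by_contra hne
  push Not at hne
  obtain ⟨i, hi⟩ := hne
  have ha0 : a ≠ 0 := fun h => hi (congrFun h i)
  obtain ⟨i₀, -, -, h, h'⟩ := orthogonal C hx hπ htr w hw a ha0
  apply h'
  have h1 : (⟨_, h⟩ : C.O) = 0 := by
    apply Subtype.ext
    change (∑ i, a i • (w i : F)) / (a i₀ : F) = 0
    rw [ha, zero_div]
  rw [h1, map_zero]

variable [FiniteDimensional K⟮x⟯ F]
  (hdeg : Module.finrank K⟮x⟯ F ≤ Module.finrank k⟮C.res ⟨x, hx⟩⟯ F')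

include hdeg

/-- Elements of the Gauss valuation ring are integral over the Gauss valuation ring of `K(x)`. -/
theorem isIntegral_comap (y : C.O) :
    IsIntegral (C.O.comap (algebraMap K⟮x⟯ F)) (y : F) := by
  have hpos : 0 < Module.finrank k⟮C.res ⟨x, hx⟩⟯ F' := lt_of_lt_of_le Module.finrank_pos hdeg
  have hfin : FiniteDimensional k⟮C.res ⟨x, hx⟩⟯ F' := FiniteDimensional.of_finrank_pos hpos
  let b' := Module.finBasis k⟮C.res ⟨x, hx⟩⟯ F'
  choose w hw using fun i => C.res_surjective (b' i)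
  have hw' : LinearIndependent k⟮C.res ⟨x, hx⟩⟯ fun i => C.res (w i) := by
    have : (fun i => C.res (w i)) = b' := funext hw
    rw [this]
    exact b'.linearIndependent
  have hli := linearIndependent_lift C hx hπ htr w hw'
  have hcard : Fintype.card (Fin (Module.finrank k⟮C.res ⟨x, hx⟩⟯ F')) = Module.finrank K⟮x⟯ F := by
    rw [Fintype.card_fin]
    refine le_antisymm ?_ hdeg
    have := hli.fintype_card_le_finrank
    rwa [Fintype.card_fin] at this
  have : Nonempty (Fin (Module.finrank k⟮C.res ⟨x, hx⟩⟯ F')) := ⟨⟨0, hpos⟩⟩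
  let B := basisOfLinearIndependentOfCardEqFinrank hli hcard
  have hB : ∀ i, B i = (w i : F) := fun i => by simp [B]
  -- the `O₀`-span of the `w i` is stable under multiplication by `y`
  let O₀ := C.O.comap (algebraMap K⟮x⟯ F)
  let N : Submodule O₀ F := Submodule.span O₀ (Set.range fun i => (w i : F))
  have hmem : ∀ z ∈ C.O, z ∈ N := by
    intro z hz
    have h1 := B.sum_repr z
    have h2 : ∑ i, (B.repr z i) • (w i : F) = z := by
      rw [← h1]
      refine Finset.sum_congr rfl fun i _ => ?_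
      rw [h1, hB]
    have h3 := coeff_mem C hx hπ htr w hw' (fun i => B.repr z i) (by rw [h2]; exact hz)
    rw [← h2]
    refine sum_mem fun i _ => ?_
    have h4 : (B.repr z i) • (w i : F) = (⟨B.repr z i, h3 i⟩ : O₀) • (w i : F) := rfl
    rw [h4]
    exact Submodule.smul_mem _ _ (Submodule.subset_span ⟨i, rfl⟩)
  have hmem' : ∀ z ∈ N, z ∈ C.O := by
    intro z hz
    induction hz using Submodule.span_induction with
    | mem z hz => obtain ⟨i, rfl⟩ := hz; exact (w i).2
    | zero => exact zero_mem _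
    | add z z' _ _ hz hz' => exact add_mem hz hz'
    | smul c z _ hz =>
      have : c • z = ((c : K⟮x⟯) : F) * z := rfl
      rw [this]
      exact mul_mem c.2 hz
  refine isIntegral_of_smul_mem_submodule (R := O₀) (A := F) (M := F) N ?_ ?_ (y : F) ?_
  · intro hbot
    have : (1 : F) ∈ N := hmem 1 (one_mem _)
    rw [hbot, Submodule.mem_bot] at this
    exact one_ne_zero this
  · exact Submodule.fg_span (Set.finite_range _)
  · intro z hz
    exact hmem _ (mul_mem y.2 (hmem' z hz))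

/-- **Gauss integrality.** -/
theorem exists_relation {y : F} (hy : y ∈ C.O) {m : ℕ} (hX : XInt K x m y) :
    ∃ (n : ℕ) (P : ℕ → A[X]), 0 < n ∧ (∀ i ∈ Finset.Icc 1 n, (P i).natDegree ≤ m * i) ∧
      y ^ n + ∑ i ∈ Finset.Icc 1 n, aeval x ((P i).map A.subtype) * y ^ (n - i) = 0 := by
  have htrx := transcendental_of_res C hx htr
  have hx0 : x ≠ 0 := by
    rintro rfl
    exact htrx (isAlgebraic_zero)
  have h1 := hX.isIntegral
  have h2 := hX.isIntegral_inv hx0
  have h3 := isIntegral_comap C hx hπ htr hdeg ⟨y, hy⟩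
  have hyE : IsIntegral K⟮x⟯ y := IsIntegral.of_finite _ _
  set n := (minpoly K⟮x⟯ y).natDegree with hn
  have hn0 : 0 < n := minpoly.natDegree_pos hyE
  have hex : ∀ i, ∃ P : A[X], i ∈ Finset.Icc 1 n → P.natDegree ≤ m * i ∧
      ((minpoly K⟮x⟯ y).coeff (n - i) : F) = aeval x (P.map A.subtype) := by
    intro i
    by_cases hi : i ∈ Finset.Icc 1 n
    swap
    · exact ⟨0, fun h => absurd h hi⟩
    rw [Finset.mem_Icc] at hi
    obtain ⟨Q, hQ1, hQ2⟩ := exists_coeff htrx h1 h2 (n - i) (by omega)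
    rw [← hn, show n - (n - i) = i by omega] at hQ1
    obtain ⟨r, hr⟩ := minpoly_coeff_mem_range (R := C.O.comap (algebraMap K⟮x⟯ F)) (E := K⟮x⟯)
      (F := F) h3 (n - i)
    have hr' : aeval x Q ∈ C.O := by
      rw [← hQ2]

      rw [← hr]
      exact r.2
    rcases eq_or_ne Q 0 with rfl | hQ0
    · exact ⟨0, fun _ => ⟨by simp, by rw [hQ2]; simp⟩⟩
    obtain ⟨c, P₁, hc, hP₁, hP⟩ := exists_primitive π Q hQ0
    have hu0 : C.res ⟨_, aeval_mem C hx P₁⟩ ≠ 0 := by
      rw [res_aeval C hx]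
      exact fun h => hP₁ ((transcendental_iff.mp htr) _ h)
    have hu := inv_mem_of_res_ne_zero C _ hu0
    have hu'' : aeval x (P₁.map A.subtype) ≠ 0 := by
      intro h; apply hu0
      rw [show (⟨_, aeval_mem C hx P₁⟩ : C.O) = 0 from Subtype.ext h, map_zero]
    have hcA : c ∈ A := by
      rw [← const_mem_iff C hπ]
      have h4 : algebraMap K F c = aeval x Q * (aeval x (P₁.map A.subtype))⁻¹ := by
        rw [hP, map_mul, aeval_C]
        field_simp
      rw [h4]
      exact mul_mem hr' hu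
    refine ⟨Polynomial.C (⟨c, hcA⟩ : A) * P₁, fun _ => ?_⟩
    have h5 : (Polynomial.C (⟨c, hcA⟩ : A) * P₁).map A.subtype = Q := by
      rw [hP, Polynomial.map_mul, Polynomial.map_C]
      rfl
    refine ⟨?_, by rw [h5]; exact hQ2⟩
    rw [← natDegree_map_eq_of_injective (f := A.subtype) Subtype.val_injective, h5]
    exact hQ1
  choose P hP using hex
  refine ⟨n, P, hn0, fun i hi => (hP i hi).1, ?_⟩
  have h6 := minpoly.aeval K⟮x⟯ y
  rw [aeval_eq_sum_range, Finset.sum_range_succ, ← hn,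
    (minpoly.monic hyE).coeff_natDegree, one_smul] at h6
  rw [← h6, add_comm, sum_Icc_flip]
  congr 1
  refine Finset.sum_congr rfl fun i hi => ?_
  rw [Finset.mem_range] at hi
  rw [← (hP (n - i) (by rw [Finset.mem_Icc]; omega)).2, show n - (n - i) = i by omega,
    Algebra.smul_def]
  rfl

/-- **Reduction of integral relations.** -/
theorem xInt_res {y : F} (hy : y ∈ C.O) {m : ℕ} (hX : XInt K x m y) :
    XInt k (C.res ⟨x, hx⟩) m (C.res ⟨y, hy⟩) := by
  obtain ⟨n, P, hn, hP, h⟩ := exists_relation C hx hπ htr hdeg hy hX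
  refine ⟨n, fun i => (P i).map π, hn, fun i hi => natDegree_map_le.trans (hP i hi), ?_⟩
  have h1 : (⟨y, hy⟩ : C.O) ^ n + ∑ i ∈ Finset.Icc 1 n,
      (⟨_, aeval_mem C hx (P i)⟩ : C.O) * ⟨y, hy⟩ ^ (n - i) = 0 := by
    apply Subtype.ext
    push_cast
    exact h
  have h2 := congrArg C.res h1
  rw [map_add, map_sum, map_pow, map_zero] at h2
  rw [← h2]
  congr 1
  refine Finset.sum_congr rfl fun i _ => ?_
  rw [map_mul, map_pow, res_aeval C hx]

end Fermat.Agent.FunField.GaussInt
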