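import Mathlib
import Fermat.Agent.FunField.GaussInt
import Fermat.Agent.FunField.Quot
import Fermat.Agent.JRED.ModularRedExists

/-!
# Integral `q`-expansions reduce into `F̄_N`, with integral relations over `k[j]`
-/

set_option autoImplicit false

open Polynomial IntermediateField AlgebraicCurve ModularCurve UpperHalfPlane

noncomputable section

namespace Fermat.Agent.FunField

open Fermat.Agent.JRED Fermat.Agent.JRED.Descent MinpolyJ GaussInt Fermat.Agent.MFF
open Fermat.Agent.IntStr

theorem xInt_map_iff {K F L : Type*} [Field K] [Field F] [Field L] [Algebra K F] [Algebra K L]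
    (f : F →ₐ[K] L) {x y : F} {m : ℕ} : XInt K (f x) m (f y) ↔ XInt K x m y := by
  constructor
  · rintro ⟨n, P, hn, hP, h⟩
    refine ⟨n, P, hn, hP, ?_⟩
    apply f.toRingHom.injective
    change f _ = f 0
    rw [map_zero, ← h, map_add, map_sum, map_pow]
    congr 1
    refine Finset.sum_congr rfl fun i _ => ?_
    rw [map_mul, map_pow, aeval_algHom_apply]
  · rintro ⟨n, P, hn, hP, h⟩
    refine ⟨n, P, hn, hP, ?_⟩
    have := congrArg f h
    rw [map_zero, map_add, map_sum, map_pow] at this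
    rw [← this]
    congr 1
    refine Finset.sum_congr rfl fun i _ => ?_
    rw [map_mul, map_pow, aeval_algHom_apply]

theorem jInt_iff {K : Type*} [Field K] {m : ℕ} {y : LaurentSeries K} :
    JInt K m y ↔ XInt K (jqModC K) m y := Iff.rfl

section Modular

variable {N : ℕ} {A : ValuationSubring (AlgebraicClosure ℚ)} {k : Type} [Field k]
  {π : A →+* k} (M : ModularConstRed N π)

theorem mem_O_of_int {y : LaurentSeries A}
    (hy : coeffMap A.subtype y ∈ modularFunctionFieldBar N) :
    (⟨coeffMap A.subtype y, hy⟩ : modularFunctionFieldBar N) ∈ M.C.O :=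
  (M.mem_O_iff _).mpr ⟨y, 1, by rw [map_one]; exact one_ne_zero, by rw [map_one, mul_one]⟩

theorem res_int {y : LaurentSeries A}
    (hy : coeffMap A.subtype y ∈ modularFunctionFieldBar N) :
    (M.C.res ⟨⟨coeffMap A.subtype y, hy⟩, mem_O_of_int M hy⟩ : LaurentSeries k) =
      coeffMap π y := by
  have := M.res_eq ⟨⟨coeffMap A.subtype y, hy⟩, mem_O_of_int M hy⟩ y 1
    (by rw [map_one]; exact one_ne_zero) (by rw [map_one, mul_one])
  rwa [map_one, mul_one] at this

theorem coe_jBar' : ((jBar N : modularFunctionFieldBar N) : LaurentSeries (AlgebraicClosure ℚ)) =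
    coeffMap A.subtype (jqModC A) := by
  rw [coeffMap_jqModC]
  exact coeffMap_jqModC (algebraMap ℚ (AlgebraicClosure ℚ))

theorem jBar_mem_O : jBar N ∈ M.C.O :=
  (M.mem_O_iff _).mpr ⟨jqModC A, 1, by rw [map_one]; exact one_ne_zero,
    by rw [map_one, mul_one, coe_jBar']⟩

theorem res_jBar : M.C.res ⟨jBar N, jBar_mem_O M⟩ = jRed k N := by
  apply Subtype.ext
  have := M.res_eq ⟨jBar N, jBar_mem_O M⟩ (jqModC A) 1 (by rw [map_one]; exact one_ne_zero)
    (by rw [map_one, mul_one, coe_jBar'])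
  rw [map_one, mul_one, coeffMap_jqModC] at this
  exact this

/-- **INT, function form**: an `A`-integral `q`-expansion in `F_N` satisfying an integral relation
over `ℚ̄[j]` has a reduction satisfying one over `k[j]`. -/
theorem jInt_red (hπ : Function.Surjective π) (h : DegreeInput N k) {m : ℕ}
    {y : LaurentSeries A} (hy : coeffMap A.subtype y ∈ modularFunctionFieldBar N)
    (hJ : JInt (AlgebraicClosure ℚ) m (coeffMap A.subtype y)) :
    coeffMap π y ∈ modularFunctionFieldFullC k N ∧ JInt k m (coeffMap π y) := by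
  let M := h.modularConstRed hπ
  have hres := res_int M hy
  have hfin := h.1
  have hx := jBar_mem_O M
  have hxr := res_jBar M
  have htr : Transcendental k (M.C.res ⟨jBar N, hx⟩) := by
    rw [hxr]; exact JRED.jRed_transcendental k N
  have hX : XInt (AlgebraicClosure ℚ) (jBar N) m
      (⟨coeffMap A.subtype y, hy⟩ : modularFunctionFieldBar N) := by
    rw [← xInt_map_iff (modularFunctionFieldBar N).val]
    have h1 : (modularFunctionFieldBar N).val (jBar N) = jqModC (AlgebraicClosure ℚ) := by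
      change ((jBar N : modularFunctionFieldBar N) : LaurentSeries (AlgebraicClosure ℚ)) = _
      rw [coe_jBar' (A := A), coeffMap_jqModC]
    rw [h1]
    exact hJ
  have hdeg : Module.finrank (AlgebraicClosure ℚ)⟮jBar N⟯ (modularFunctionFieldBar N) ≤
      Module.finrank k⟮M.C.res ⟨jBar N, hx⟩⟯ (modularFunctionFieldFullC k N) := by
    rw [hxr]; exact h.2
  have h2 := xInt_res M.C hx hπ htr hdeg (mem_O_of_int M hy) hX
  rw [← xInt_map_iff (modularFunctionFieldFullC k N).val] at h2
  have h3 : (modularFunctionFieldFullC k N).val (M.C.res ⟨jBar N, hx⟩) = jqModC k := by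
    rw [hxr]; rfl
  rw [h3] at h2
  refine ⟨?_, ?_⟩
  · rw [← hres]
    exact Subtype.property _
  · rw [← hres]
    exact h2

end Modular

section Forms

variable {N : ℕ} {A : ValuationSubring (AlgebraicClosure ℚ)} {k : Type} [Field k]
  {π : A →+* k} [Algebra (AlgebraicClosure ℚ) ℂ]

/-- the `q`-expansion of `f` is the power series `a` with coefficients in `A ⊆ ℚ̄ ⊆ ℂ`. -/
def HasA (f : ℍ → ℂ) (a : PowerSeries A) : Prop :=
  emb (AlgebraicClosure ℚ) ℂ (coeffMap A.subtype (HahnSeries.ofPowerSeries ℤ A a)) = LQ f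

theorem hasA_of_coeff {f : ℍ → ℂ} {a : PowerSeries A}
    (h : ∀ n, (qExpansion 1 f).coeff n = algebraMap (AlgebraicClosure ℚ) ℂ (a.coeff n : A)) :
    HasA f a := by
  rw [HasA, ModularCurve.coeffMap_ofPowerSeries, ModularCurve.coeffMap_ofPowerSeries, LQ]
  congr 1
  ext n
  rw [h n, PowerSeries.coeff_map, PowerSeries.coeff_map]
  rfl

theorem HasA.coeff {f : ℍ → ℂ} {a : PowerSeries A} (h : HasA f a) (n : ℕ) :
    (qExpansion 1 f).coeff n = algebraMap (AlgebraicClosure ℚ) ℂ (a.coeff n : A) := by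
  rw [HasA, ModularCurve.coeffMap_ofPowerSeries, ModularCurve.coeffMap_ofPowerSeries, LQ] at h
  have := congrArg (PowerSeries.coeff n) (HahnSeries.ofPowerSeries_injective h)
  rw [PowerSeries.coeff_map, PowerSeries.coeff_map] at this
  rw [← this]
  rfl

omit [Algebra (AlgebraicClosure ℚ) ℂ] in
theorem emb_injective {K Ω : Type*} [Field K] [Field Ω] [Algebra K Ω] :
    Function.Injective (emb K Ω) := (emb K Ω).injective

omit [Algebra (AlgebraicClosure ℚ) ℂ] in
theorem coeffMap_subtype_ne_zero {a : LaurentSeries A} (h : coeffMap π a ≠ 0) :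
    coeffMap A.subtype a ≠ 0 := by
  intro h0
  apply h
  have : a = 0 := by
    ext n
    have := congrArg (fun x : LaurentSeries (AlgebraicClosure ℚ) => x.coeff n) h0
    simpa using this
  rw [this, map_zero]

/-- **Ratios of `A`-integral forms reduce into `F̄_N`.** -/
theorem ratio_red [NeZero N] (hπ : Function.Surjective π) (h : DegreeInput N k) {w : ℤ}
    {f g : ℍ → ℂ} (hf : IsMN N w f) (hg : IsMN N w g) {a b : PowerSeries A} (ha : HasA f a)
    (hb : HasA g b) (hb0 : b.map π ≠ 0) :
    HahnSeries.ofPowerSeries ℤ k (a.map π) / HahnSeries.ofPowerSeries ℤ k (b.map π) ∈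
      modularFunctionFieldFullC k N := by
  have hb1 : coeffMap π (HahnSeries.ofPowerSeries ℤ A b) ≠ 0 := by
    rw [ModularCurve.coeffMap_ofPowerSeries]
    intro h0
    exact hb0 (HahnSeries.ofPowerSeries_injective (by rw [h0, map_zero]))
  have hb2 := coeffMap_subtype_ne_zero hb1
  have hg0 : g ≠ 0 := by
    rintro rfl
    rw [HasA, LQ_zero] at hb
    exact hb2 (emb_injective (by rw [hb, map_zero]))
  set y : LaurentSeries (AlgebraicClosure ℚ) :=
    coeffMap A.subtype (HahnSeries.ofPowerSeries ℤ A a) /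
      coeffMap A.subtype (HahnSeries.ofPowerSeries ℤ A b) with hy
  have hy1 : y ∈ modularFunctionFieldBar N := by
    rw [modularFunctionFieldBar_eq]
    refine mem_full_of_ratio hf hg hg0 ?_
    rw [hy, map_div₀, ha, hb]
  refine h.mem_full hπ (f := ⟨y, hy1⟩) ?_
  refine ⟨HahnSeries.ofPowerSeries ℤ A a, HahnSeries.ofPowerSeries ℤ A b, hb1, ?_, ?_⟩
  · change y * _ = _
    rw [hy, div_mul_cancel₀ _ hb2]
  · rw [ModularCurve.coeffMap_ofPowerSeries] at hb1
    rw [ModularCurve.coeffMap_ofPowerSeries, ModularCurve.coeffMap_ofPowerSeries,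
      div_mul_cancel₀ _ hb1]

/-- **INT(N, m)**: for `G ∈ M_{12m}(Γ₀(N))` with `A`-integral `q`-expansion, the reduction of
`G / Δ ^ m` lies in `F̄_N` and satisfies `y ^ n + ∑ Pᵢ(j) y ^ (n - i) = 0`, `deg Pᵢ ≤ m i`. -/
theorem form_int [NeZero N] (hπ : Function.Surjective π) (h : DegreeInput N k) {m : ℕ}
    {G : ℍ → ℂ} (hG : IsMN N (12 * m) G) {a : PowerSeries A} (ha : HasA G a) :
    HahnSeries.ofPowerSeries ℤ k (a.map π) / deltaL k ^ m ∈ modularFunctionFieldFullC k N ∧
      JInt k m (HahnSeries.ofPowerSeries ℤ k (a.map π) / deltaL k ^ m) := by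
  obtain ⟨u, hu⟩ := (isUnit_deltaL A).pow m
  set y : LaurentSeries A := HahnSeries.ofPowerSeries ℤ A a * (u⁻¹ : (LaurentSeries A)ˣ) with hy
  have hyu : y * deltaL A ^ m = HahnSeries.ofPowerSeries ℤ A a := by
    rw [hy, ← hu, Units.inv_mul_cancel_right]
  have hred : coeffMap π y = HahnSeries.ofPowerSeries ℤ k (a.map π) / deltaL k ^ m := by
    rw [eq_div_iff (pow_ne_zero _ (deltaL_ne_zero k))]
    have := congrArg (coeffMap π) hyu
    rwa [map_mul, map_pow, coeffMap_deltaL, ModularCurve.coeffMap_ofPowerSeries] at this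
  have hsub : emb (AlgebraicClosure ℚ) ℂ (coeffMap A.subtype y) = LQ G / LQ Delta ^ m := by
    rw [eq_div_iff (pow_ne_zero _ LQ_Delta_ne_zero), LQ_Delta, ← ha, ← hyu]
    simp only [map_mul, map_pow, coeffMap_deltaL]
  have hy1 : coeffMap A.subtype y ∈ modularFunctionFieldBar N := by
    rw [modularFunctionFieldBar_eq]
    have hD : IsMN N (12 * m) ((⇑Delta : ℍ → ℂ) ^ m) :=
      ((Delta_isL1.isMN N).pow m).cast (by ring)
    have h3 : LQ ((⇑Delta : ℍ → ℂ) ^ m) = LQ Delta ^ m := LQ_pow Delta_isL1.anQ m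
    refine mem_full_of_ratio hG hD (fun h0 => ?_) (by rw [hsub, h3])
    rw [h0, LQ_zero] at h3
    exact pow_ne_zero _ LQ_Delta_ne_zero h3.symm
  have hJ : JInt (AlgebraicClosure ℚ) m (coeffMap A.subtype y) := by
    apply JInt.descend (L := ℂ)
    rw [hsub]
    exact jInt_of_isMN hG
  have := jInt_red hπ h hy1 hJ
  rwa [hred] at this

theorem HasA.mul {f g : ℍ → ℂ} {a b : PowerSeries A} (hf : HasA f a) (hg : HasA g b)
    (hfA : AnQ f) (hgA : AnQ g) : HasA (f * g) (a * b) := by
  rw [HasA, map_mul, map_mul, map_mul, hf, hg, LQ_mul hfA hgA]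

theorem HasA.pow {f : ℍ → ℂ} {a : PowerSeries A} (hf : HasA f a) (hfA : AnQ f) (n : ℕ) :
    HasA (f ^ n) (a ^ n) := by
  rw [HasA, map_pow, map_pow, map_pow, hf, LQ_pow hfA]

theorem HasA.add {f g : ℍ → ℂ} {a b : PowerSeries A} (hf : HasA f a) (hg : HasA g b)
    (hfA : AnQ f) (hgA : AnQ g) : HasA (f + g) (a + b) := by
  rw [HasA, map_add, map_add, map_add, hf, hg, LQ_add hfA hgA]

theorem hasA_int {f : ℍ → ℂ} {P : PowerSeries ℤ}
    (h : LQ f = HahnSeries.ofPowerSeries ℤ ℂ (P.map (Int.castRingHom ℂ))) :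
    HasA f (P.map (Int.castRingHom A)) := by
  rw [HasA, ModularCurve.coeffMap_ofPowerSeries, ModularCurve.coeffMap_ofPowerSeries,
    map_map_int, map_map_int, h]

theorem hasA_Delta : HasA (A := A) Delta (deltaZ.map (Int.castRingHom A)) :=
  hasA_int (by rw [LQ_Delta, deltaL])

theorem hasA_E4 : HasA (A := A) (ModularForm.E₄ : ModularForm _ 4)
    (eisenstein4.map (Int.castRingHom A)) := hasA_int (by rw [LQ_E4, E4L])

theorem hasA_E6 : HasA (A := A) (ModularForm.E₆ : ModularForm _ 6)
    (eisenstein6.map (Int.castRingHom A)) := hasA_int (by rw [LQ_E6, E6L])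

omit [Algebra (AlgebraicClosure ℚ) ℂ] in
theorem map_int_π (P : PowerSeries ℤ) :
    (P.map (Int.castRingHom A)).map π = P.map (Int.castRingHom k) := map_map_int π P

/-- **Weight two forms**: for `f ∈ M₂(Γ₀(N))` with `A`-integral `q`-expansion, the reduction of
`f / θ(j)` lies in `F̄_N`. -/
theorem weight_two_red [NeZero N] (hπ : Function.Surjective π) (h : DegreeInput N k)
    {f : ℍ → ℂ} (hf : IsMN N 2 f) {a : PowerSeries A} (ha : HasA f a) :
    HahnSeries.ofPowerSeries ℤ k (a.map π) / thetaD k (jqModC k) ∈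
      modularFunctionFieldFullC k N := by
  have h1 : IsMN N 14 (f * (⇑Delta : ℍ → ℂ)) := (hf.mul (Delta_isL1.isMN N)).cast (by norm_num)
  have h2 := isL1_E14.isMN N
  have h3 : HasA (f * (⇑Delta : ℍ → ℂ)) (a * deltaZ.map (Int.castRingHom A)) :=
    ha.mul hasA_Delta hf.anQ Delta_isL1.anQ
  have h4 : HasA (A := A) _ _ := (hasA_E4.pow isL1_E₄.anQ 2).mul hasA_E6 (isL1_E₄.anQ.pow 2)
    isL1_E₆.anQ
  have h5 : (eisenstein4.map (Int.castRingHom A) ^ 2 * eisenstein6.map (Int.castRingHom A)).map π =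
      eisenstein4.map (Int.castRingHom k) ^ 2 * eisenstein6.map (Int.castRingHom k) := by
    rw [map_mul, map_pow, map_int_π, map_int_π]
  have h6 : eisenstein4.map (Int.castRingHom k) ^ 2 * eisenstein6.map (Int.castRingHom k) ≠ 0 := by
    intro h0
    have h7 := congrArg PowerSeries.constantCoeff h0
    rw [map_mul, map_pow, ← PowerSeries.coeff_zero_eq_constantCoeff_apply,
      ← PowerSeries.coeff_zero_eq_constantCoeff_apply, PowerSeries.coeff_map,
      PowerSeries.coeff_map, PowerSeries.coeff_zero_eq_constantCoeff_apply,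
      PowerSeries.coeff_zero_eq_constantCoeff_apply, constantCoeff_eisenstein4,
      constantCoeff_eisenstein6] at h7
    simp at h7
  have h8 := ratio_red hπ h h1 h2 h3 h4 (by rw [h5]; exact h6)
  rw [h5, map_mul, map_int_π, map_mul, map_mul, map_pow] at h8
  have h9 : HahnSeries.ofPowerSeries ℤ k (a.map π) / thetaD k (jqModC k) =
      - (HahnSeries.ofPowerSeries ℤ k (a.map π) * deltaL k / (E4L k ^ 2 * E6L k)) := by
    have hD := deltaL_ne_zero k
    rw [thetaD_jqModC_eq]
    field_simp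
  rw [h9]
  exact neg_mem h8

end Forms

end Fermat.Agent.FunField
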