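import Mathlib
import Fermat.Agent.FunField.Int

/-!
# `f ^ n / Δ` is a modular form for `f` a cusp form on `Γ₀(N)` and `n ≥ N`
-/

set_option autoImplicit false

open UpperHalfPlane ModularForm MatrixGroups CongruenceSubgroup ModularCurve Filter
open Fermat.Agent.IntStr Fermat.Agent.MFF FermatJ
open scoped Manifold

noncomputable section

namespace Fermat.Agent.FunField

variable {N : ℕ} [NeZero N] {k : ℤ}

omit [NeZero N] in
theorem T_zpow_mem_Gamma (N : ℕ) : (ModularGroup.T ^ (N : ℤ) : SL(2, ℤ)) ∈ Gamma N := by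
  rw [Gamma_mem, ModularGroup.coe_T_zpow]
  simp

omit [NeZero N] in
theorem slash_T_pow (f : CuspForm (Gamma0 N : Subgroup (GL (Fin 2) ℝ)) k) (γ : SL(2, ℤ)) :
    (⇑f ∣[k] γ) ∣[k] (ModularGroup.T ^ (N : ℤ)) = ⇑f ∣[k] γ := by
  have h1 : γ * ModularGroup.T ^ (N : ℤ) * γ⁻¹ ∈ Gamma0 N := by
    have h2 : γ * ModularGroup.T ^ (N : ℤ) * γ⁻¹ ∈ Gamma N :=
      (Gamma_normal N).conj_mem _ (T_zpow_mem_Gamma N) γ
    rw [Gamma_mem] at h2
    rw [Gamma0_mem]
    exact h2.2.2.1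
  have h3 : ⇑f ∣[k] (γ * ModularGroup.T ^ (N : ℤ) * γ⁻¹) = ⇑f :=
    f.slash_action_eq' _ ⟨_, h1, rfl⟩
  rw [← SlashAction.slash_mul]
  nth_rw 2 [← h3]
  rw [← SlashAction.slash_mul, inv_mul_cancel_right]

omit [NeZero N] in
theorem periodic_slash (f : CuspForm (Gamma0 N : Subgroup (GL (Fin 2) ℝ)) k) (γ : SL(2, ℤ)) :
    Function.Periodic ((⇑f ∣[k] γ) ∘ ofComplex) (N : ℝ) := by
  apply FermatJ.periodic_of_forall
  intro τ
  have h := congrFun (slash_T_pow f γ) τ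
  rw [ModularForm.SL_slash_apply] at h
  have h1 : (ModularGroup.T ^ (N : ℤ) : SL(2, ℤ)) • τ = (N : ℝ) +ᵥ τ := by
    rw [modular_T_zpow_smul]
    simp
  have h2 : denom (ModularGroup.T ^ (N : ℤ) : SL(2, ℤ)) τ = 1 := by
    rw [ModularGroup.denom_apply, ModularGroup.coe_T_zpow]
    simp
  rw [h1, h2, one_zpow, mul_one] at h
  exact h

theorem slash_decay (f : CuspForm (Gamma0 N : Subgroup (GL (Fin 2) ℝ)) k) (γ : SL(2, ℤ)) :
    (⇑f ∣[k] γ) =O[atImInfty] fun τ => Real.exp (-2 * Real.pi * τ.im / (N : ℝ)) := by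
  have hz : IsZeroAtImInfty (⇑f ∣[k] γ) := CuspFormClass.zero_at_infty_slash f γ
  exact hz.exp_decay_atImInfty (by exact_mod_cast Nat.pos_of_ne_zero (NeZero.ne N))
    (periodic_slash f γ) (MDifferentiable.slash f.holo' k _) hz.isBoundedAtImInfty

theorem div_delta_slash (f : ℍ → ℂ) (n : ℕ) (k : ℤ) (γ : SL(2, ℤ)) (τ : ℍ) :
    ((fun τ => f τ ^ n / discriminant τ) ∣[(n * k - 12 : ℤ)] γ) τ =
      ((f ∣[k] γ) τ) ^ n / discriminant τ := by
  rw [ModularForm.SL_slash_apply, ModularForm.SL_slash_apply, FermatJ.discriminant_smul, mul_pow,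
    ← zpow_natCast (denom _ _ ^ (-k)), ← zpow_mul]
  have hd : denom (γ : GL (Fin 2) ℝ) τ ≠ 0 := denom_ne_zero _ _
  have hD := discriminant_ne_zero τ
  have h1 : denom (γ : GL (Fin 2) ℝ) τ ^ (-(n * k - 12 : ℤ)) =
      denom (γ : GL (Fin 2) ℝ) τ ^ (-k * n) * denom (γ : GL (Fin 2) ℝ) τ ^ (12 : ℤ) := by
    rw [← zpow_add₀ hd]
    congr 1
    ring
  rw [h1]
  have h2 : denom (γ : GL (Fin 2) ℝ) τ ^ (12 : ℤ) ≠ 0 := zpow_ne_zero _ hd
  field_simp

theorem slash_pow_isBigO (f : CuspForm (Gamma0 N : Subgroup (GL (Fin 2) ℝ)) k) (γ : SL(2, ℤ))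
    {n : ℕ} (hn : N ≤ n) : (fun τ => (⇑f ∣[k] γ) τ ^ n) =O[atImInfty] discriminant := by
  have h1 := (slash_decay f γ).pow n
  have hN : (0 : ℝ) < N := by exact_mod_cast Nat.pos_of_ne_zero (NeZero.ne N)
  have h2 : (fun τ : ℍ => Real.exp (-2 * Real.pi * τ.im / (N : ℝ)) ^ n) =O[atImInfty]
      fun τ : ℍ => Real.exp (-2 * Real.pi * τ.im) := by
    refine Asymptotics.IsBigO.of_bound 1 (Eventually.of_forall fun τ => ?_)
    rw [Real.norm_of_nonneg (by positivity), Real.norm_of_nonneg (Real.exp_pos _).le, one_mul,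
      ← Real.exp_nat_mul, Real.exp_le_exp]
    have h3 : (1 : ℝ) ≤ n / N := by
      rw [le_div_iff₀ hN, one_mul]
      exact_mod_cast hn
    have h4 : (n : ℝ) * (-2 * Real.pi * τ.im / N) = (n / N) * (-2 * Real.pi * τ.im) := by ring
    rw [h4]
    have h5 : -2 * Real.pi * τ.im ≤ 0 := by
      have := mul_pos Real.pi_pos τ.im_pos
      linarith
    nlinarith
  exact (h1.trans h2).trans exp_isBigO_discriminant

/-- `f ^ n / Δ` is a modular form for `n ≥ N`. -/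
theorem exists_div_delta (f : CuspForm (Gamma0 N : Subgroup (GL (Fin 2) ℝ)) k) {n : ℕ}
    (hn : N ≤ n) : ∃ G : ModularForm (Gamma0 N : Subgroup (GL (Fin 2) ℝ)) (n * k - 12),
      (⇑G : ℍ → ℂ) * discriminant = (⇑f : ℍ → ℂ) ^ n := by
  have hmdiff : MDiff (fun τ => f τ ^ n / discriminant τ) := by
    have h1 := f.holo'
    have h2 := FermatJ.mdifferentiable_discriminant
    rw [UpperHalfPlane.mdifferentiable_iff] at *
    exact (h1.pow n).div h2 fun z _ => discriminant_ne_zero _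
  refine ⟨⟨⟨fun τ => f τ ^ n / discriminant τ, ?_⟩, hmdiff, ?_⟩, ?_⟩
  · rintro _ ⟨γ, hγ, rfl⟩
    have h1 : ⇑f ∣[k] γ = ⇑f := f.slash_action_eq' _ ⟨γ, hγ, rfl⟩
    funext τ
    change ((fun τ => f τ ^ n / discriminant τ) ∣[(n * k - 12 : ℤ)] γ) τ = _
    rw [div_delta_slash, h1]
  · intro x hx
    rw [Subgroup.IsArithmetic.isCusp_iff_isCusp_SL2Z] at hx
    rw [OnePoint.isBoundedAt_iff_forall_SL2Z hx]
    intro γ _
    have h1 := (slash_pow_isBigO f γ hn).mul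
      (Asymptotics.isBigO_refl (fun τ : ℍ => (discriminant τ)⁻¹) atImInfty)
    unfold IsBoundedAtImInfty BoundedAtFilter
    refine Asymptotics.IsBigO.congr' (h1.trans (Asymptotics.isBigO_of_le _ (g := 1) fun τ => ?_))
      (Eventually.of_forall fun τ => ?_) (Eventually.of_forall fun τ => rfl)
    · rw [mul_inv_cancel₀ (discriminant_ne_zero τ)]
      simp
    · exact (div_delta_slash f n k γ τ).symm
  · funext τ
    exact div_mul_cancel₀ _ (discriminant_ne_zero τ)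

/-- For `f ∈ S₂(Γ₀(N))`: `(f⁶/Δ)^N` is of the form `G/Δ^{N-1}`. -/
theorem cusp_jInt (f : CuspForm (Gamma0 N : Subgroup (GL (Fin 2) ℝ)) 2) :
    JInt ℂ (N - 1) ((LQ f ^ 6 / LQ Delta) ^ N) := by
  obtain ⟨G, hG⟩ := exists_div_delta f (n := 6 * N) (by omega)
  have hN : 1 ≤ N := Nat.one_le_iff_ne_zero.mpr (NeZero.ne N)
  have hG' : IsMN N (12 * (N - 1 : ℕ)) (⇑G : ℍ → ℂ) :=
    IsMN.cast ⟨G, rfl⟩ (by push_cast [Nat.cast_sub hN]; ring)
  have hfA : AnQ (⇑f : ℍ → ℂ) := (IsCN.isMN (N := N) (k := 2) ⟨f, rfl⟩).anQ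
  have h1 := congrArg LQ hG
  rw [← coe_Delta, LQ_mul hG'.anQ Delta_isL1.anQ, LQ_pow hfA] at h1
  have h2 := jInt_of_isMN hG'
  have hD := LQ_Delta_ne_zero
  have h3 : (LQ f ^ 6 / LQ Delta) ^ N = LQ G / LQ Delta ^ (N - 1) := by
    rw [div_pow, ← pow_mul, ← h1, div_eq_div_iff (pow_ne_zero _ hD) (pow_ne_zero _ hD), mul_assoc,
      ← pow_succ']
    congr 2
    omega
  rw [h3]
  exact h2

theorem ratio_six_mem {f : ℍ → ℂ} (hf : IsMN N 2 f) :
    LQ f ^ 6 / LQ Delta ∈ modularFunctionFieldC ℂ N := by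
  have h := ratio_mem (N := N) (k := 12) (f := f ^ 6) (g := ⇑Delta)
    ((hf.pow 6).cast (by norm_num)) (Delta_isL1.isMN N) (fun h0 => by
      have := congrFun h0 I
      exact Delta_ne_zero _ this)
  rwa [LQ_pow hf.anQ] at h

/-- **Cusp forms of weight two mod `ℓ`**: for `f ∈ S₂(Γ₀(N))` with `A`-integral `q`-expansion,
`f̄⁶/Δ̄ ∈ F̄_N`, and `(f̄⁶/Δ̄)^N` satisfies `y ^ n + ∑ Pᵢ(j) y ^ (n - i) = 0` with
`deg Pᵢ ≤ (N - 1) i`. -/
theorem cusp_red {A : ValuationSubring (AlgebraicClosure ℚ)} {k : Type} [Field k]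
    {π : A →+* k} [Algebra (AlgebraicClosure ℚ) ℂ] (hπ : Function.Surjective π)
    (h : JRED.DegreeInput N k) (f : CuspForm (Gamma0 N : Subgroup (GL (Fin 2) ℝ)) 2)
    {a : PowerSeries A} (ha : HasA f a) :
    HahnSeries.ofPowerSeries ℤ k (a.map π) ^ 6 / deltaL k ∈ modularFunctionFieldFullC k N ∧
      JInt k (N - 1) ((HahnSeries.ofPowerSeries ℤ k (a.map π) ^ 6 / deltaL k) ^ N) := by
  obtain ⟨u, hu⟩ := isUnit_deltaL A
  have hfM : IsMN N 2 (⇑f : ℍ → ℂ) := IsCN.isMN ⟨f, rfl⟩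
  set y : LaurentSeries A := HahnSeries.ofPowerSeries ℤ A a ^ 6 * (u⁻¹ : (LaurentSeries A)ˣ) with hy
  have hyu : y * deltaL A = HahnSeries.ofPowerSeries ℤ A a ^ 6 := by
    rw [hy, ← hu, Units.inv_mul_cancel_right]
  have hred : coeffMap π y = HahnSeries.ofPowerSeries ℤ k (a.map π) ^ 6 / deltaL k := by
    rw [eq_div_iff (deltaL_ne_zero k)]
    have := congrArg (coeffMap π) hyu
    rwa [map_mul, map_pow, coeffMap_deltaL, ModularCurve.coeffMap_ofPowerSeries] at this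
  have hsub : emb (AlgebraicClosure ℚ) ℂ (coeffMap A.subtype y) = LQ f ^ 6 / LQ Delta := by
    rw [eq_div_iff LQ_Delta_ne_zero, LQ_Delta, ← ha, ← map_pow, ← map_pow, ← hyu]
    simp only [map_mul, coeffMap_deltaL]
  have hmem : coeffMap A.subtype y ∈ modularFunctionFieldBar N := by
    rw [modularFunctionFieldBar_eq, ← emb_mem_full_iff (Ω := ℂ), modularFunctionFieldFullC_eq, hsub]
    exact ratio_six_mem hfM
  have hmemN : coeffMap A.subtype (y ^ N) ∈ modularFunctionFieldBar N := by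
    rw [map_pow]
    exact pow_mem hmem N
  have hJ : JInt (AlgebraicClosure ℚ) (N - 1) (coeffMap A.subtype (y ^ N)) := by
    apply JInt.descend (L := ℂ)
    rw [map_pow, map_pow, hsub]
    exact cusp_jInt f
  have h1 := jInt_red hπ h hmemN hJ
  refine ⟨?_, ?_⟩
  · rw [← hred]
    refine h.mem_full hπ (f := ⟨coeffMap A.subtype y, hmem⟩) ?_
    exact JRED.red_of_integral hmem
  · rw [← hred, ← map_pow]
    exact h1.2

end Fermat.Agent.FunField
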